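import Fermat.Agent.Igusa.Fibre.RootUnits
import Mathlib.RingTheory.IntegralClosure.Algebra.Basic

/-!
# `ℓ`-th roots of unity and cyclotomic units in the algebraic integers, modulo a place above `ℓ`
-/

set_option autoImplicit false

noncomputable section

namespace FermatAgent.DeligneSerre.WeightOne

open FermatAgent.Igusa (zetaRoot zetaRoot_ne_zero zetaRoot_zpow_pow zetaRoot_zpow_eq_one_iff)

/-- The algebraic integers of `ℂ`. -/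
abbrev AlgInt : Type := integralClosure ℤ ℂ

variable (ℓ : ℕ) [NeZero ℓ]

/-- `exp(2πib/ℓ)` as an algebraic integer. -/
def zInt (b : ℤ) : AlgInt :=
  ⟨zetaRoot ℓ ^ b, IsIntegral.of_pow (NeZero.pos ℓ)
    ((zetaRoot_zpow_pow ℓ b).symm ▸ isIntegral_one)⟩

@[simp] theorem coe_zInt (b : ℤ) : (zInt ℓ b : ℂ) = zetaRoot ℓ ^ b := rfl

theorem zInt_pow (b : ℤ) (m : ℕ) : zInt ℓ b ^ m = zInt ℓ (b * m) :=
  Subtype.ext (by
    rw [SubmonoidClass.coe_pow, coe_zInt, coe_zInt, ← zpow_natCast, ← zpow_mul])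

theorem zInt_eq_one_iff (b : ℤ) : zInt ℓ b = 1 ↔ (ℓ : ℤ) ∣ b := by
  rw [← zetaRoot_zpow_eq_one_iff ℓ b, Subtype.ext_iff]
  rfl

theorem zInt_pow_card (b : ℤ) : zInt ℓ b ^ ℓ = 1 :=
  Subtype.ext (by rw [SubmonoidClass.coe_pow, coe_zInt, zetaRoot_zpow_pow]; rfl)

theorem zInt_mul_neg (b : ℤ) : zInt ℓ b * zInt ℓ (-b) = 1 :=
  Subtype.ext (by
    show zetaRoot ℓ ^ b * zetaRoot ℓ ^ (-b) = 1
    rw [zpow_neg, mul_inv_cancel₀ (zetaRoot_ne_zero ℓ b)])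

variable {ℓ} {k : Type*} [Field k] [CharP k ℓ] (φ : AlgInt →+* k)

theorem map_zInt (hℓ : ℓ.Prime) (b : ℤ) : φ (zInt ℓ b) = 1 := by
  have : Fact ℓ.Prime := ⟨hℓ⟩
  have h : (φ (zInt ℓ b) - 1) ^ ℓ = 0 := by
    rw [sub_pow_char, one_pow, ← map_pow, zInt_pow_card, map_one, sub_self]
  exact sub_eq_zero.mp (pow_eq_zero_iff hℓ.ne_zero |>.mp h)

/-- `(1 - x) / (1 - x ^ m)` is integral and reduces to `1 / m`. -/
theorem exists_cycUnit (hℓ : ℓ.Prime) {m : ℕ} (hm : ¬ ℓ ∣ m) (b : ℤ) :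
    ∃ w : AlgInt, (1 - zInt ℓ b ^ m) * w = 1 - zInt ℓ b ∧ φ w * (m : k) = 1 := by
  obtain ⟨c, hc⟩ : ∃ c : ℕ, (m * c) % ℓ = 1 := by
    obtain ⟨c, -, hc⟩ := Nat.exists_mul_mod_eq_one_of_coprime
      ((hℓ.coprime_iff_not_dvd.mpr hm).symm) hℓ.one_lt
    exact ⟨c, hc⟩
  have hmc : m * c = ℓ * (m * c / ℓ) + 1 := by
    conv_lhs => rw [← Nat.div_add_mod (m * c) ℓ, hc]
  refine ⟨∑ i ∈ Finset.range c, (zInt ℓ b ^ m) ^ i, ?_, ?_⟩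
  · rw [mul_neg_geom_sum, ← pow_mul, hmc, pow_succ, pow_mul, zInt_pow_card, one_pow, one_mul]
  · simp only [map_sum, map_pow, map_zInt φ hℓ, one_pow, Finset.sum_const, Finset.card_range,
      nsmul_one]
    rw [← Nat.cast_mul, mul_comm, hmc, Nat.cast_add, Nat.cast_mul, CharP.cast_eq_zero, zero_mul,
      zero_add, Nat.cast_one]

theorem one_sub_zInt_ne_zero {b : ℤ} (hb : ¬ (ℓ : ℤ) ∣ b) : 1 - zInt ℓ b ≠ 0 :=
  sub_ne_zero.mpr fun h => hb ((zInt_eq_one_iff ℓ b).mp h.symm)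

/-- `1 / (1 + x)` is integral and reduces to `1 / 2`. -/
theorem exists_inv_one_add (hℓ : ℓ.Prime) (h2 : ¬ ℓ ∣ 2) {b : ℤ} (hb : ¬ (ℓ : ℤ) ∣ b) :
    ∃ w : AlgInt, (1 + zInt ℓ b) * w = 1 ∧ φ w * 2 = 1 := by
  obtain ⟨w, hw, hφ⟩ := exists_cycUnit φ hℓ h2 b
  refine ⟨w, mul_left_cancel₀ (one_sub_zInt_ne_zero hb) ?_, by simpa using hφ⟩
  linear_combination hw

/-- `1 / (1 + x + x²)` is integral and reduces to `1 / 3`. -/
theorem exists_inv_cubic (hℓ : ℓ.Prime) (h3 : ¬ ℓ ∣ 3) {b : ℤ} (hb : ¬ (ℓ : ℤ) ∣ b) :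
    ∃ w : AlgInt, (1 + zInt ℓ b + zInt ℓ b ^ 2) * w = 1 ∧ φ w * 3 = 1 := by
  obtain ⟨w, hw, hφ⟩ := exists_cycUnit φ hℓ h3 b
  refine ⟨w, mul_left_cancel₀ (one_sub_zInt_ne_zero hb) ?_, by simpa using hφ⟩
  linear_combination hw

end FermatAgent.DeligneSerre.WeightOne
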