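import Fermat.Agent.DeligneSerre.WeightOne.RatioForm
import Fermat.Agent.DeligneSerre.WeightOne.Cyclotomic

/-!
# A weight one form on `Γ₁(ℓ)` congruent to `1`, of character `ω⁻¹` modulo a place above `ℓ`

With `u = 1/ℓ` and `h` the normalisation of `℘'(u) / (℘(u) - ℘(2u))`, the translate of `h` by
`γ ∈ Γ₀(ℓ)` has integral expansion congruent to the constant `1 / d`, `d` the lower right entry.
-/

set_option autoImplicit false

noncomputable section

open CongruenceSubgroup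
open UpperHalfPlane hiding I
open scoped Real Topology MatrixGroups Manifold ModularForm

namespace FermatAgent.DeligneSerre.WeightOne

open FermatAgent.Igusa (zetaRoot NonzeroMod wpDiff wpDiffCoeff arithCoeff map_arithCoeff koebe
  wpCoeff)
open FermatAgent.ModFun (dil)
open FermatAgent.ModCurve.Forms (IsMF)

local notation "𝕢" => Function.Periodic.qParam

variable {L : ℕ} [NeZero L]

theorem hasCoeff_of_dil_support {f : ℍ → ℂ} {c : ℕ → ℂ} (h : HasCoeff (f ∘ dil L) c)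
    (hc : ∀ n, ¬ L ∣ n → c n = 0) : HasCoeff f fun n => c (L * n) := by
  intro τ
  let v : ℍ := ⟨(τ : ℂ) / L, by
    rw [Complex.div_natCast_im]; exact div_pos τ.im_pos (Nat.cast_pos.mpr (NeZero.pos L))⟩
  have hv : dil L v = τ := UpperHalfPlane.ext (by
    rw [FermatAgent.ModFun.coe_dil]
    exact mul_div_cancel₀ _ (Nat.cast_ne_zero.mpr (NeZero.ne L)))
  have hq : 𝕢 1 (v : ℂ) ^ L = 𝕢 1 (τ : ℂ) := by
    simp only [v, Function.Periodic.qParam, ← Complex.exp_nat_mul]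
    congr 1
    have : (L : ℂ) ≠ 0 := Nat.cast_ne_zero.mpr (NeZero.ne L)
    push_cast
    field_simp
  have h1 := h v
  rw [Function.comp_apply, hv] at h1
  have hi : Function.Injective (fun n : ℕ => L * n) := mul_right_injective₀ (NeZero.ne L)
  refine ((hi.hasSum_iff ?_).mpr h1).congr_fun fun n => ?_
  · intro n hn
    rw [hc n fun ⟨r, hr⟩ => hn ⟨r, hr.symm⟩, zero_mul]
  · simp only [Function.comp_apply, pow_mul, hq]

theorem map_sqArith {K K' : Type*} [CommRing K] [CommRing K'] (f : K →+* K') (L c : ℕ) (ω : K)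
    (n : ℕ) : f (sqArith L c ω n) = sqArith L c (f ω) n := by
  simp [sqArith, map_sum]

/-- The integral higher coefficients of the numerator. -/
def numTail (L : ℕ) [NeZero L] (b : ℤ) (n : ℕ) : AlgInt :=
  sqArith L L (zInt L (-b)) (L * n) - sqArith L 0 (zInt L b) (L * n)

/-- The integral higher coefficients of the denominator. -/
def denTail (L : ℕ) [NeZero L] (b : ℤ) (n : ℕ) : AlgInt :=
  arithCoeff L 0 (zInt L b) (L * n) + arithCoeff L L (zInt L (-b)) (L * n) -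
    (arithCoeff L 0 (zInt L (b + b)) (L * n) + arithCoeff L L (zInt L (-(b + b))) (L * n))

theorem hasCoeff_num {b : ℤ} (hb : ¬ (L : ℤ) ∣ b) :
    HasCoeff (wpDeriv L (0, b)) fun n =>
      if n = 0 then -cubeKoebe (zetaRoot L ^ b) else (numTail L b n : ℂ) := by
  have h := hasSum_wpDeriv_dil (L := L) (a := 0) (NeZero.pos L) b (fun h => hb h.2)
  simp only [Nat.cast_zero] at h
  refine (hasCoeff_of_dil_support h fun n hn => ?_).congr fun n => ?_
  · rw [wpDerivCoeff, if_neg (fun h0 : n = 0 => hn (by rw [h0]; exact dvd_zero L)),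
      sqArith_of_not_dvd _ (by simp) hn, sqArith_of_not_dvd _ (dvd_zero L) hn, sub_zero]
  · rw [wpDerivCoeff]
    rcases eq_or_ne n 0 with rfl | hn
    · simp
    · rw [if_neg hn, if_neg (Nat.mul_ne_zero (NeZero.ne L) hn), Nat.sub_zero, numTail]
      have key : ∀ (c m : ℕ) (w : AlgInt), ((sqArith L c w m : AlgInt) : ℂ) =
          sqArith L c (w : ℂ) m := fun c m w => map_sqArith (algebraMap AlgInt ℂ) L c w m
      simp [key]

theorem hasCoeff_den {b : ℤ} (hb : ¬ (L : ℤ) ∣ b) (hb2 : ¬ (L : ℤ) ∣ b + b) :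
    HasCoeff (wpDiff L (0, b) ((0, b) + (0, b))) fun n =>
      if n = 0 then koebe (zetaRoot L ^ b) - koebe (zetaRoot L ^ (b + b))
      else (denTail L b n : ℂ) := by
  have h : HasCoeff (wpDiff L (0, b) ((0, b) + (0, b)) ∘ dil L)
      (wpDiffCoeff L (0, b) ((0, b) + (0, b))) :=
    FermatAgent.Igusa.hasSum_wpDiff (fun h => hb h.2) (fun h => hb2 h.2)
  refine (hasCoeff_of_dil_support h fun n hn => ?_).congr fun n => ?_
  · have hz : ∀ (c : ℕ) (ω : ℂ), L ∣ c → arithCoeff L c ω n = 0 := fun c ω hc => by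
      rw [arithCoeff, Finset.sum_eq_zero]
      intro d hd
      rw [Finset.mem_filter, Nat.mem_divisors, Nat.mod_eq_zero_of_dvd hc] at hd
      exact absurd ((Nat.dvd_of_mod_eq_zero hd.2).trans hd.1.1) hn
    have hn0 : n ≠ 0 := fun h0 => hn (h0 ▸ dvd_zero L)
    simp [wpDiffCoeff, wpCoeff, hn0, hz]
  · rcases eq_or_ne n 0 with rfl | hn
    · simp [wpDiffCoeff, wpCoeff]
    · rw [if_neg hn, wpDiffCoeff, wpCoeff, wpCoeff, if_neg (Nat.mul_ne_zero (NeZero.ne L) hn),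
        if_neg (Nat.mul_ne_zero (NeZero.ne L) hn), denTail]
      have key : ∀ (c m : ℕ) (w : AlgInt), ((arithCoeff L c w m : AlgInt) : ℂ) =
          arithCoeff L c (w : ℂ) m := fun c m w => map_arithCoeff (algebraMap AlgInt ℂ) L c w m
      simp [key, zpow_neg, zpow_add₀ (show zetaRoot L ≠ 0 by
        simpa using FermatAgent.Igusa.zetaRoot_ne_zero L 1)]

variable {k : Type*} [Field k]

/-- A series with constant term `1` and all other coefficients killed by `φ`. -/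
theorem map_normalised (φ : AlgInt →+* k) {z : AlgInt} (hz : φ z = 0) (t : ℕ → AlgInt) :
    (PowerSeries.mk fun n => if n = 0 then 1 else z * t n).map φ = 1 := by
  ext n
  rcases eq_or_ne n 0 with rfl | hn
  · simp
  · simp [hn, hz]

/-- The quotient of two normalised series. -/
theorem exists_quotient (φ : AlgInt →+* k) {zP zQ : AlgInt} (hP : φ zP = 0) (hQ : φ zQ = 0)
    (tP tQ : ℕ → AlgInt) :
    ∃ S : PowerSeries AlgInt, S.map φ = 1 ∧
      S * PowerSeries.mk (fun n => if n = 0 then 1 else zQ * tQ n) =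
        PowerSeries.mk fun n => if n = 0 then 1 else zP * tP n := by
  set Q : PowerSeries AlgInt := PowerSeries.mk fun n => if n = 0 then 1 else zQ * tQ n
  set P : PowerSeries AlgInt := PowerSeries.mk fun n => if n = 0 then 1 else zP * tP n
  obtain ⟨R, hR⟩ : IsUnit Q := PowerSeries.isUnit_iff_constantCoeff.mpr (by
    rw [← PowerSeries.coeff_zero_eq_constantCoeff_apply]
    simp [Q])
  refine ⟨P * (R⁻¹ : (PowerSeries AlgInt)ˣ), ?_, ?_⟩
  · have hR1 : (R : PowerSeries AlgInt).map φ = 1 := by rw [hR]; exact map_normalised φ hQ tQ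
    have h := congrArg (PowerSeries.map φ) (Units.mul_inv R)
    rw [map_mul, map_one, hR1, one_mul] at h
    rw [map_mul, h, map_normalised φ hP tP, mul_one]
  · rw [mul_assoc, ← hR, Units.inv_mul, mul_one]

theorem ratio_identity {x z w2 w3 wd : ℂ} (n1 : 1 - x ≠ 0) (n1' : 1 - z ≠ 0)
    (n4 : 1 + z + z ^ 2 ≠ 0) (e2 : (1 + z) * w2 = 1) (e3 : (1 + x + x ^ 2) * w3 = 1)
    (ed : (1 - x) * wd = 1 - z) :
    (1 + x) ^ 3 * w2 ^ 3 * (1 + z + z ^ 2) * w3 * wd =
      (-((1 + z) ^ 3 / ((1 - z) * (1 + z + z ^ 2))))⁻¹ *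
        -((1 + x) ^ 3 / ((1 - x) * (1 + x + x ^ 2))) := by
  have n2 : 1 + z ≠ 0 := left_ne_zero_of_mul_eq_one e2
  have n3 : 1 + x + x ^ 2 ≠ 0 := left_ne_zero_of_mul_eq_one e3
  obtain rfl : w2 = 1 / (1 + z) := eq_div_iff n2 |>.mpr ((mul_comm _ _).trans e2)
  obtain rfl : w3 = 1 / (1 + x + x ^ 2) := eq_div_iff n3 |>.mpr ((mul_comm _ _).trans e3)
  obtain rfl : wd = (1 - z) / (1 - x) := eq_div_iff n1 |>.mpr ((mul_comm _ _).trans ed)
  field_simp

variable {ℓ : ℕ} [CharP k ℓ] (hℓ : ℓ.Prime) (h5 : 5 ≤ ℓ) (φ : AlgInt →+* k)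
include hℓ h5

/-- The constant term of the form at `u = b/ℓ`. -/
def ratioConst (L : ℕ) (b : ℤ) : ℂ :=
  -cubeKoebe (zetaRoot L ^ b) / (koebe (zetaRoot L ^ b) - koebe (zetaRoot L ^ (b + b)))

theorem exists_expansion {b : ℤ} (hb : ¬ (ℓ : ℤ) ∣ b) :
    ∃ S : PowerSeries AlgInt, S.map φ = 1 ∧ ratioConst ℓ b ≠ 0 ∧
      HasCoeff (ratioFun ℓ (0, b)) fun n => ratioConst ℓ b * (S.coeff n : ℂ) := by
  have : NeZero ℓ := ⟨hℓ.ne_zero⟩
  have hne2 : ¬ ℓ ∣ 2 := fun h => absurd (Nat.le_of_dvd two_pos h) (by omega)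
  have hne3 : ¬ ℓ ∣ 3 := fun h => absurd (Nat.le_of_dvd three_pos h) (by omega)
  have hu : NonzeroMod ℓ ((0 : ℤ), b) := fun h => hb h.2
  have hadm := ratioAdm_of_prime hℓ h5 hu
  have hb2 : ¬ (ℓ : ℤ) ∣ b + b := fun h => hadm.right ⟨by simp, h⟩
  obtain ⟨w2, hw2, -⟩ := exists_inv_one_add φ hℓ hne2 hb
  obtain ⟨w3, hw3, -⟩ := exists_inv_cubic φ hℓ hne3 hb
  set x := zInt ℓ b
  set x' := zInt ℓ (-b)
  set zP : AlgInt := -((1 - x) ^ 3 * x' * w2) with hzP
  set zQ : AlgInt := (1 - x ^ 2) ^ 2 * x' * w3 with hzQ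
  have hx1 : φ x = 1 := map_zInt φ hℓ b
  obtain ⟨S, hS, hSmul⟩ := exists_quotient φ (zP := zP) (zQ := zQ)
    (by simp [hzP, hx1]) (by simp [hzQ, hx1]) (numTail ℓ b) (denTail ℓ b)
  -- the constant terms
  set n0 : ℂ := -cubeKoebe (zetaRoot ℓ ^ b)
  set d0 : ℂ := koebe (zetaRoot ℓ ^ b) - koebe (zetaRoot ℓ ^ (b + b))
  have hxx : (x : ℂ) * (x' : ℂ) = 1 := congrArg Subtype.val (zInt_mul_neg ℓ b)
  have hw2' : (1 + (x : ℂ)) * (w2 : ℂ) = 1 := congrArg Subtype.val hw2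
  have hw3' : (1 + (x : ℂ) + (x : ℂ) ^ 2) * (w3 : ℂ) = 1 := congrArg Subtype.val hw3
  have hA : (1 : ℂ) - (x : ℂ) ≠ 0 := fun h =>
    one_sub_zInt_ne_zero hb (Subtype.ext h)
  have hB : (1 : ℂ) + (x : ℂ) ≠ 0 := left_ne_zero_of_mul_eq_one hw2'
  have hz2 : zetaRoot ℓ ^ (b + b) = (x : ℂ) ^ 2 := by
    rw [sq, coe_zInt, zpow_add₀ (by simpa using FermatAgent.Igusa.zetaRoot_ne_zero ℓ 1)]
  have hxb : zetaRoot ℓ ^ b = (x : ℂ) := rfl
  have hn0 : n0 * (zP : ℂ) = 1 := by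
    simp only [n0, cubeKoebe, hzP, NegMemClass.coe_neg, MulMemClass.coe_mul, SubmonoidClass.coe_pow,
      AddSubgroupClass.coe_sub, OneMemClass.coe_one, hxb]
    field_simp
    linear_combination ((x' : ℂ) * (x : ℂ)) * hw2' + hxx
  have hd0 : d0 * (zQ : ℂ) = 1 := by
    simp only [d0, koebe, hz2, hzQ, MulMemClass.coe_mul, SubmonoidClass.coe_pow,
      AddSubgroupClass.coe_sub, OneMemClass.coe_one, hxb]
    have h1 : (1 : ℂ) - (x : ℂ) ^ 2 ≠ 0 := by
      rw [show (1 : ℂ) - (x : ℂ) ^ 2 = (1 - x) * (1 + x) by ring]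
      exact mul_ne_zero hA hB
    field_simp
    linear_combination
      ((x' : ℂ) * (x : ℂ) * (1 - (x : ℂ)) ^ 2) * hw3' + (1 - (x : ℂ)) ^ 2 * hxx
  have hκ : ratioConst ℓ b ≠ 0 := div_ne_zero (left_ne_zero_of_mul_eq_one hn0)
    (left_ne_zero_of_mul_eq_one hd0)
  refine ⟨S, hS, hκ, ?_⟩
  -- the identity of series
  set f := ratioFun ℓ ((0 : ℤ), b)
  have hreg := ratioFun_regular hadm
  have hper : ∀ τ : ℍ, f ((1 : ℝ) +ᵥ τ) = f τ := fun τ => by
    have h := congrFun (ratioFun_slash ℓ ((0 : ℤ), b) ModularGroup.T) τ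
    rw [ModularForm.SL_slash_apply, UpperHalfPlane.modular_T_smul,
      ratioFun_congr hℓ.pos (u := FermatAgent.Igusa.vecMulSL ((0 : ℤ), b) ModularGroup.T)
        (w := ((0 : ℤ), b)) (by simp [FermatAgent.Igusa.vecMulSL, ModularGroup.coe_T])
        (by simp [FermatAgent.Igusa.vecMulSL, ModularGroup.coe_T])] at h
    simpa [UpperHalfPlane.denom, ModularGroup.coe_T] using h
  have hf : HasCoeff f (ModularFormClass.qCoeff f) := fun τ =>
    (FermatAgent.ModFun.hasSum_of_mem ⟨hreg.1, hper, .of_bounded hreg.2⟩ hreg.2 τ).congr_fun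
      fun n => by simp [ModularFormClass.qCoeff, f]
  have hmul : f * wpDiff ℓ (0, b) ((0, b) + (0, b)) = wpDeriv ℓ (0, b) :=
    funext fun τ => div_mul_cancel₀ _
      (FermatAgent.Igusa.wpDiff_ne_zero hadm.left hadm.right hadm.ne τ)
  have hconv := (hf.mul (hasCoeff_den hb hb2)).unique ((hasCoeff_num hb).congr_fun' hmul)
  have hser : PowerSeries.mk (ModularFormClass.qCoeff f) *
      (PowerSeries.C d0 * (PowerSeries.mk fun n => if n = 0 then 1 else zQ * denTail ℓ b n).map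
        (algebraMap AlgInt ℂ)) =
      PowerSeries.C n0 * (PowerSeries.mk fun n => if n = 0 then 1 else zP * numTail ℓ b n).map
        (algebraMap AlgInt ℂ) := by
    have e1 : ∀ (c : ℂ) (z : AlgInt) (t : ℕ → AlgInt), c * (z : ℂ) = 1 →
        PowerSeries.C c * (PowerSeries.mk fun n => if n = 0 then 1 else z * t n).map
          (algebraMap AlgInt ℂ) =
        PowerSeries.mk fun n => if n = 0 then c else (t n : ℂ) := fun c z t hcz => by
      ext n
      rcases eq_or_ne n 0 with rfl | hn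
      · simp
      · simp only [PowerSeries.coeff_C_mul, PowerSeries.coeff_map, PowerSeries.coeff_mk, if_neg hn,
          map_mul]
        rw [← mul_assoc]
        show c * (z : ℂ) * (t n : ℂ) = t n
        rw [hcz, one_mul]
    rw [e1 _ _ _ hd0, e1 _ _ _ hn0]
    ext n
    rw [← conv_eq_coeff_mul, hconv, PowerSeries.coeff_mk]
  rw [← hSmul, map_mul, ← mul_assoc, ← mul_assoc] at hser
  set Qc := (PowerSeries.mk fun n => if n = 0 then 1 else zQ * denTail ℓ b n).map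
    (algebraMap AlgInt ℂ)
  have hQc : Qc ≠ 0 := fun h => by simpa [Qc] using congrArg (PowerSeries.coeff 0) h
  have hfin : PowerSeries.mk (ModularFormClass.qCoeff f) =
      PowerSeries.C (ratioConst ℓ b) * S.map (algebraMap AlgInt ℂ) := by
    have hC : PowerSeries.C d0 ≠ 0 := fun h =>
      left_ne_zero_of_mul_eq_one hd0 (PowerSeries.C_injective (h.trans (map_zero _).symm))
    refine mul_right_cancel₀ hC ((mul_right_cancel₀ hQc hser).trans ?_)
    rw [mul_right_comm, ← map_mul, show ratioConst ℓ b * d0 = n0 from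
      div_mul_cancel₀ _ (left_ne_zero_of_mul_eq_one hd0)]
  refine hf.congr fun n => ?_
  have := congrArg (PowerSeries.coeff n) hfin
  rw [PowerSeries.coeff_mk, PowerSeries.coeff_C_mul, PowerSeries.coeff_map] at this
  exact this.symm

/-- A weight one form on `Γ₁(ℓ)` congruent to `1` whose translate by `γ ∈ Γ₀(ℓ)` is congruent
to the inverse of the lower right entry. -/
theorem exists_weightOne_congr :
    ∃ h : ℍ → ℂ, IsMF (Gamma1 ℓ) 1 h ∧ ∀ γ ∈ Gamma0 ℓ, ∃ x : ℕ → AlgInt,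
      HasCoeff (h ∣[(1 : ℤ)] γ) (fun n => (x n : ℂ)) ∧ φ (x 0) * ((γ 1 1 : ℤ) : k) = 1 ∧
      ∀ n, n ≠ 0 → φ (x n) = 0 := by
  have : NeZero ℓ := ⟨hℓ.ne_zero⟩
  have hne2 : ¬ ℓ ∣ 2 := fun h => absurd (Nat.le_of_dvd two_pos h) (by omega)
  have hne3 : ¬ ℓ ∣ 3 := fun h => absurd (Nat.le_of_dvd three_pos h) (by omega)
  have h1 : ¬ (ℓ : ℤ) ∣ 1 := fun h => hℓ.ne_one (Nat.dvd_one.mp (by exact_mod_cast h))
  obtain ⟨-, -, hκ1, -⟩ := exists_expansion hℓ h5 φ h1
  refine ⟨(ratioConst ℓ 1)⁻¹ • ratioFun ℓ (0, 1),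
    (isMF_ratioFun hℓ h5).smul _, fun γ hγ => ?_⟩
  set d : ℤ := γ 1 1 with hd
  have hdvd : ¬ (ℓ : ℤ) ∣ d := fun h => h1 (by
    have hdet := γ.det_coe
    rw [Matrix.det_fin_two] at hdet
    rw [← hdet]
    exact dvd_sub (h.mul_left _)
      (((ZMod.intCast_zmod_eq_zero_iff_dvd _ _).mp (Gamma0_mem.mp hγ)).mul_left _))
  obtain ⟨S, hS, hκd, hSd⟩ := exists_expansion hℓ h5 φ hdvd
  have hslash : ((ratioConst ℓ 1)⁻¹ • ratioFun ℓ (0, 1)) ∣[(1 : ℤ)] γ =
      (ratioConst ℓ 1)⁻¹ • ratioFun ℓ (0, d) := by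
    rw [ModularForm.SL_smul_slash, ratioFun_slash]
    congr 1
    refine ratioFun_congr hℓ.pos ?_ ?_ <;>
      simp [FermatAgent.Igusa.vecMulSL, hd, ← ZMod.intCast_zmod_eq_zero_iff_dvd,
        Gamma0_mem.mp hγ]
  -- the ratio of the constant terms
  obtain ⟨w2, hw2, hφ2⟩ := exists_inv_one_add φ hℓ hne2 h1
  obtain ⟨w3, hw3, hφ3⟩ := exists_inv_cubic φ hℓ hne3 hdvd
  set dn : ℕ := (d % ℓ).toNat with hdn
  have hdn' : ((dn : ℕ) : ℤ) = d % ℓ :=
    Int.toNat_of_nonneg (Int.emod_nonneg _ (by exact_mod_cast hℓ.ne_zero))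
  have hdl : ¬ ℓ ∣ dn := fun h => hdvd (by
    have h' : (ℓ : ℤ) ∣ d % ℓ := hdn' ▸ Int.natCast_dvd_natCast.mpr h
    rw [← Int.emod_add_mul_ediv d ℓ]
    exact dvd_add h' (dvd_mul_right _ _))
  obtain ⟨wd, hwd, hφd⟩ := exists_cycUnit φ hℓ hdl 1
  set z := zInt ℓ 1
  set x := zInt ℓ d
  have hzx : z ^ dn = x := by
    rw [zInt_pow, one_mul]
    refine Subtype.ext ?_
    rw [coe_zInt, coe_zInt, hdn']
    exact FermatAgent.Igusa.zetaRoot_zpow_congr ℓ ⟨-(d / ℓ), by rw [Int.emod_def]; ring⟩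
  set r : AlgInt := (1 + x) ^ 3 * w2 ^ 3 * (1 + z + z ^ 2) * w3 * wd with hr
  have hrC : (r : ℂ) = (ratioConst ℓ 1)⁻¹ * ratioConst ℓ d := by
    have hC : ∀ b : ℤ, ¬ (ℓ : ℤ) ∣ b → ratioConst ℓ b =
        -((1 + (zInt ℓ b : ℂ)) ^ 3 / ((1 - (zInt ℓ b : ℂ)) *
          (1 + (zInt ℓ b : ℂ) + (zInt ℓ b : ℂ) ^ 2))) := fun b hb => by
      obtain ⟨v2, hv2, -⟩ := exists_inv_one_add φ hℓ hne2 hb
      obtain ⟨v3, hv3, -⟩ := exists_inv_cubic φ hℓ hne3 hb
      have hA : (1 : ℂ) - (zInt ℓ b : ℂ) ≠ 0 := fun h =>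
        one_sub_zInt_ne_zero hb (Subtype.ext h)
      have hB : (1 : ℂ) + (zInt ℓ b : ℂ) ≠ 0 :=
        left_ne_zero_of_mul_eq_one (congrArg Subtype.val hv2)
      have hC : (1 : ℂ) + (zInt ℓ b : ℂ) + (zInt ℓ b : ℂ) ^ 2 ≠ 0 :=
        left_ne_zero_of_mul_eq_one (congrArg Subtype.val hv3)
      have hz : (zInt ℓ b : ℂ) ≠ 0 := FermatAgent.Igusa.zetaRoot_ne_zero ℓ b
      have hD : (1 : ℂ) - (zInt ℓ b : ℂ) ^ 2 ≠ 0 := by
        rw [show (1 : ℂ) - (zInt ℓ b : ℂ) ^ 2 = (1 - zInt ℓ b) * (1 + zInt ℓ b) by ring]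
        exact mul_ne_zero hA hB
      have hb2 : zetaRoot ℓ ^ (b + b) = (zInt ℓ b : ℂ) ^ 2 := by
        rw [sq, coe_zInt, zpow_add₀ (by simpa using FermatAgent.Igusa.zetaRoot_ne_zero ℓ 1)]
      have hden : koebe (zInt ℓ b : ℂ) - koebe ((zInt ℓ b : ℂ) ^ 2) =
          (zInt ℓ b : ℂ) * (1 + (zInt ℓ b : ℂ) + (zInt ℓ b : ℂ) ^ 2) /
            (1 - (zInt ℓ b : ℂ) ^ 2) ^ 2 := by
        simp only [koebe]
        field_simp
        ring
      rw [ratioConst, hb2, ← coe_zInt, hden, cubeKoebe]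
      field_simp
      ring
    rw [hC 1 h1, hC d hdvd]
    have e2 : (1 + (z : ℂ)) * (w2 : ℂ) = 1 := congrArg Subtype.val hw2
    have e3 : (1 + (x : ℂ) + (x : ℂ) ^ 2) * (w3 : ℂ) = 1 := congrArg Subtype.val hw3
    have ed : (1 - (x : ℂ)) * (wd : ℂ) = 1 - (z : ℂ) := by
      rw [← hzx]; exact congrArg Subtype.val hwd
    obtain ⟨v3, hv3, -⟩ := exists_inv_cubic φ hℓ hne3 h1
    simp only [hr, MulMemClass.coe_mul, SubmonoidClass.coe_pow, AddMemClass.coe_add,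
      OneMemClass.coe_one]
    exact ratio_identity
      (fun h => one_sub_zInt_ne_zero hdvd (Subtype.ext h))
      (fun h => one_sub_zInt_ne_zero h1 (Subtype.ext h))
      (left_ne_zero_of_mul_eq_one (congrArg Subtype.val hv3)) e2 e3 ed
  refine ⟨fun n => r * S.coeff n, ?_, ?_, fun n hn => ?_⟩
  · rw [hslash]
    refine (hSd.smul _).congr fun n => ?_
    simp only [Pi.smul_apply, smul_eq_mul, MulMemClass.coe_mul, hrC, mul_assoc]
  · have h0 : φ (S.coeff 0) = 1 := by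
      rw [← PowerSeries.coeff_map, hS, PowerSeries.coeff_zero_one]
    have hdk : ((d : ℤ) : k) = (dn : k) := by
      have e : d = (ℓ : ℤ) * (d / ℓ) + (dn : ℤ) := by rw [hdn', Int.mul_ediv_add_emod]
      conv_lhs => rw [e]
      simp
    simp only [map_mul, h0, mul_one, hr, map_pow, map_add, map_one, map_zInt φ hℓ, z, x, hdk,
      one_pow]
    linear_combination (φ w3 * (φ wd * (dn : k)) * 3 * ((φ w2 * 2) ^ 2 + φ w2 * 2 + 1)) * hφ2 +
      (φ wd * (dn : k)) * hφ3 + hφd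
  · have h0 : φ (S.coeff n) = 0 := by
      rw [← PowerSeries.coeff_map, hS, PowerSeries.coeff_one, if_neg hn]
    rw [map_mul, h0, mul_zero]

end FermatAgent.DeligneSerre.WeightOne
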