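import Fermat.Agent.DeligneSerre.WeightOne.Nebentypus
import Fermat.Agent.DeligneSerre.WeightOne.EllForm
import Fermat.Agent.DeligneSerre.Periods.Congruence

/-!
# The weight two form congruent to a weight one eigenform

For `f` of weight one with the Hecke relations of character `ε` and integral coefficients, and `h`
as in `exists_weightOne_congr`, the form `g = f h` on `±Γ₁(N ℓ)` has integral diamond translates
congruent to multiples of `f`, the multiplier of `⟨d⟩` being `ε d / d`.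
-/

set_option autoImplicit false

noncomputable section

open CongruenceSubgroup
open UpperHalfPlane hiding I
open scoped Real Topology MatrixGroups Manifold ModularForm

namespace FermatAgent.DeligneSerre.WeightOne

open FermatAgent.ModCurve.Forms (IsMF IsCF)
open FermatAgent.DeligneSerre.Periods (lr lr_mul gamma0Lift gamma0Lift_mem lr_gamma0Lift primeUnit coe_primeUnit)

variable {N : ℕ}

theorem isIntegral_dirichlet [NeZero N] (ε : DirichletCharacter ℂ N) (d : ZMod N) :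
    IsIntegral ℤ (ε d) := by
  by_cases hd : IsUnit d
  · obtain ⟨u, rfl⟩ := hd
    refine IsIntegral.of_pow (Fintype.card_pos (α := (ZMod N)ˣ)) ?_
    rw [← map_pow, ← Units.val_pow_eq_pow_val, pow_card_eq_one, Units.val_one, map_one]
    exact isIntegral_one
  · rw [ε.map_nonunit hd]
    exact isIntegral_zero

/-- The values of a Dirichlet character as algebraic integers. -/
def charInt [NeZero N] (ε : DirichletCharacter ℂ N) (d : ZMod N) : AlgInt :=
  ⟨ε d, isIntegral_dirichlet ε d⟩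

@[simp] theorem coe_charInt [NeZero N] (ε : DirichletCharacter ℂ N) (d : ZMod N) :
    (charInt ε d : ℂ) = ε d := rfl

theorem charInt_mul [NeZero N] (ε : DirichletCharacter ℂ N) (a b : ZMod N) :
    charInt ε (a * b) = charInt ε a * charInt ε b := Subtype.ext (map_mul ε a b)

theorem charInt_one [NeZero N] (ε : DirichletCharacter ℂ N) : charInt ε 1 = 1 :=
  Subtype.ext (map_one ε)

variable [NeZero N] {k : Type} [Field k]

/-- `d ↦ φ (ε d) / d` on `(ℤ/M)ˣ`, for `N` and `ℓ` dividing `M`. -/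
def twistChar {M ℓ : ℕ} [CharP k ℓ] (hNM : N ∣ M) (hlM : ℓ ∣ M) (φ : AlgInt →+* k)
    (ε : DirichletCharacter ℂ N) : (ZMod M)ˣ →* k where
  toFun d := φ (charInt ε (ZMod.castHom hNM (ZMod N) d)) * (ZMod.castHom hlM k d)⁻¹
  map_one' := by rw [Units.val_one, map_one, map_one, charInt_one, map_one, inv_one, one_mul]
  map_mul' d d' := by
    rw [Units.val_mul, map_mul, map_mul, charInt_mul, map_mul, mul_inv]
    ring

theorem twistChar_apply {M ℓ : ℕ} [CharP k ℓ] (hNM : N ∣ M) (hlM : ℓ ∣ M) (φ : AlgInt →+* k)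
    (ε : DirichletCharacter ℂ N) (d : (ZMod M)ˣ) {z : ℤ} (hz : (z : ZMod M) = d) :
    twistChar hNM hlM φ ε d = φ (charInt ε (z : ZMod N)) * ((z : ℤ) : k)⁻¹ := by
  show φ (charInt ε (ZMod.castHom hNM (ZMod N) d)) * (ZMod.castHom hlM k d)⁻¹ = _
  rw [← hz, map_intCast, map_intCast]

/-- `p e(p) = ε p`. -/
theorem prime_mul_twistChar {M ℓ : ℕ} [CharP k ℓ] (hNM : N ∣ M) (hlM : ℓ ∣ M) (hℓ : ℓ.Prime)
    (φ : AlgInt →+* k) (ε : DirichletCharacter ℂ N) {p : ℕ} (hp : p.Prime) (hpM : ¬ p ∣ M) :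
    (p : k) * twistChar hNM hlM φ ε (primeUnit hp hpM) = φ (charInt ε (p : ZMod N)) := by
  have hpk : (p : k) ≠ 0 := fun h0 => hpM (by
    obtain rfl := ((Nat.prime_dvd_prime_iff_eq hℓ hp).mp ((CharP.cast_eq_zero_iff k ℓ p).mp h0))
    exact hlM)
  rw [twistChar_apply hNM hlM φ ε _ (z := (p : ℤ)) (by simp)]
  simp only [Int.cast_natCast]
  field_simp

/-- The form `f h` on `±Γ₁(N ℓ)`. -/
theorem exists_hasCong {ℓ : ℕ} [NeZero (N * ℓ)] [CharP k ℓ] (hℓ : ℓ.Prime) (h5 : 5 ≤ ℓ)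
    (φ : AlgInt →+* k) {ε : DirichletCharacter ℂ N} {f : ℍ → ℂ} (hf : IsCF (Gamma1 N) 1 f)
    {c a : ℕ → AlgInt} (hc : HasCoeff f fun n => (c n : ℂ))
    (ha : ∀ p : ℕ, p.Prime → ¬ p ∣ N → ∀ n,
      c (p * n) + charInt ε (p : ZMod N) * (if p ∣ n then c (n / p) else 0) = a p * c n) :
    ∃ g : Periods.S2 (N * ℓ),
      Periods.HasCong φ (twistChar (dvd_mul_right N ℓ) (dvd_mul_left ℓ N) φ ε) (φ ∘ c) g 1 ∧
      Periods.IsEigenSeq (twistChar (dvd_mul_right N ℓ) (dvd_mul_left ℓ N) φ ε) (φ ∘ c) (φ ∘ a) := by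
  have hε : ∀ γ ∈ Gamma0 N, f ∣[(1 : ℤ)] γ = ε (lr N γ) • f := fun γ hγ => by
    refine slash_eq_eps_smul hf (fun p hp hpN => ⟨a p, fun n => ?_⟩) hγ
    simp only [hc.qCoeff_eq]
    have h := congrArg (algebraMap AlgInt ℂ) (ha p hp hpN n)
    rw [map_add, map_mul, map_mul, apply_ite (algebraMap AlgInt ℂ), map_zero] at h
    exact h
  obtain ⟨h, hh, hexp⟩ := exists_weightOne_congr hℓ h5 φ
  have hsub : ∀ {γ : SL(2, ℤ)}, γ ∈ Gamma0 (N * ℓ) → γ ∈ Gamma0 N ∧ γ ∈ Gamma0 ℓ := fun {γ} hγ => by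
    simp only [Gamma0_mem, ZMod.intCast_zmod_eq_zero_iff_dvd] at hγ ⊢
    push_cast at hγ
    exact ⟨(dvd_mul_right _ _).trans hγ, (dvd_mul_left _ _).trans hγ⟩
  have hgam : ∀ γ : SL(2, ℤ), γ ∈ Gamma1 (N * ℓ) → (f * h) ∣[(2 : ℤ)] γ = f * h := fun γ hγ => by
    have hle : ∀ m : ℕ, m ∣ N * ℓ → γ ∈ Gamma1 m := fun m hm => by
      obtain ⟨h00, h11, h10⟩ := (Gamma1_mem _ γ).mp hγ
      have hcast : ∀ z w : ℤ, (z : ZMod (N * ℓ)) = (w : ZMod (N * ℓ)) → (z : ZMod m) = (w : ZMod m) :=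
        fun z w e => by
          simpa using congrArg (ZMod.castHom hm (ZMod m)) e
      exact (Gamma1_mem m γ).mpr ⟨by simpa using hcast _ 1 (by simpa using h00),
        by simpa using hcast _ 1 (by simpa using h11), by simpa using hcast _ 0 (by simpa using h10)⟩
    rw [show (2 : ℤ) = 1 + 1 from rfl, ModularForm.mul_slash_SL2,
      hf.inv γ (hle N (dvd_mul_right _ _)), hh.inv γ (hle ℓ (dvd_mul_left _ _))]
  have hneg : ∀ F : ℍ → ℂ, F ∣[(2 : ℤ)] (-1 : SL(2, ℤ)) = F := fun F => by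
    funext τ
    rw [ModularForm.SL_slash_apply]
    simp [denom]
  have hinv : ∀ γ ∈ X1.gam (N * ℓ), (f * h) ∣[(2 : ℤ)] γ = f * h := fun γ hγ => by
    have key : ∀ δ : SL(2, ℤ), δ ∈ Gamma0 (N * ℓ) → lr (N * ℓ) δ = 1 →
        (f * h) ∣[(2 : ℤ)] δ = f * h := fun δ h0 h1 => hgam δ
      ((between_gamma1 (N * ℓ)).mem_of_lr (one_mem _) h0 (by rw [h1, Periods.lr_one]))
    rcases hγ.2 with h1 | h1
    · exact key γ hγ.1 h1
    · have hm : -1 * γ ∈ Gamma0 (N * ℓ) :=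
        mul_mem (Gamma0_mem.mpr (by simp)) hγ.1
      rw [show γ = -1 * (-1 * γ) by simp, SlashAction.slash_mul, hneg]
      refine key _ hm ?_
      show ((((-1 * γ : SL(2, ℤ))) 1 1 : ℤ) : ZMod (N * ℓ)) = 1
      simp [h1]
  have hcf : IsCF (X1.gam (N * ℓ)) 2 (f * h) := by
    refine ⟨⟨hf.holo.mul hh.holo, hinv, fun γ => ?_⟩, fun γ => ?_⟩
    · rw [show (2 : ℤ) = 1 + 1 from rfl, ModularForm.mul_slash_SL2]
      exact (hf.bdd γ).mul (hh.bdd γ)
    · rw [show (2 : ℤ) = 1 + 1 from rfl, ModularForm.mul_slash_SL2]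
      have h0 := ((Asymptotics.isLittleO_one_iff ℝ).mpr (hf.zero γ)).mul_isBigO (hh.bdd γ)
      simp only [Pi.one_apply, mul_one] at h0
      exact (Asymptotics.isLittleO_one_iff ℝ).mp h0
  have := (between_gam (N * ℓ)).finiteIndex
  refine ⟨hcf.toCuspForm, fun d n => ?_, fun p hp hpM n => ?_⟩
  swap
  · have hpN : ¬ p ∣ N := fun h => hpM (h.mul_right ℓ)
    rw [prime_mul_twistChar _ _ hℓ φ ε hp hpM]
    have e := congrArg φ (ha p hp hpN n)
    rw [map_add, map_mul, map_mul, apply_ite φ, map_zero, mul_comm p n] at e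
    simp only [Function.comp_apply]
    rw [← e, mul_ite, mul_zero]
  set γ := gamma0Lift d
  have hγ : γ ∈ Gamma0 (N * ℓ) := gamma0Lift_mem d
  have hd : ((γ 1 1 : ℤ) : ZMod (N * ℓ)) = (d : ZMod (N * ℓ)) := lr_gamma0Lift d
  obtain ⟨x, hx, hx0, hxn⟩ := hexp γ (hsub hγ).2
  set y : ℕ → AlgInt := fun n => charInt ε ((γ 1 1 : ℤ) : ZMod N) *
    ∑ ij ∈ Finset.HasAntidiagonal.antidiagonal n, c ij.1 * x ij.2
  have hy : HasCoeff ((f * h) ∣[(2 : ℤ)] γ) fun n => (y n : ℂ) := by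
    rw [show (2 : ℤ) = 1 + 1 from rfl, ModularForm.mul_slash_SL2, hε γ (hsub hγ).1, smul_mul_assoc]
    refine ((hc.mul hx).smul (ε (lr N γ))).congr fun m => ?_
    simp [y, conv, lr]
  refine ⟨y n, (hy.qCoeff_eq n).symm, ?_⟩
  simp only [y, map_mul, map_sum]
  rw [Finset.sum_eq_single (n, 0), twistChar_apply _ _ φ ε d hd, one_mul,
    eq_inv_of_mul_eq_one_left hx0]
  · simp only [Function.comp_apply]
    ring
  · rintro ⟨i, j⟩ hij hne
    rw [Finset.HasAntidiagonal.mem_antidiagonal] at hij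
    rw [hxn j (fun h0 => hne (by simp_all)), mul_zero]
  · intro h0; simp at h0

end FermatAgent.DeligneSerre.WeightOne
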