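import Fermat.Agent.ModCurve.Forms.Basic
import Fermat.Agent.Eisenstein.QSeries
import Fermat.Agent.Igusa.Fibre.Series
import Fermat.Prelude.Def_ModularForm_HeckeOperator
import Fermat.Prelude.Def_FLTPrelim_Modularity

/-!
# Expansions in `q` of functions on the upper half plane, with complex coefficients

`HasCoeff f c` says that `f τ = ∑ c n qⁿ`.  We record uniqueness, the algebra of such expansions
and the effect of `U_p` and of `f ↦ f ∣ diag(p, 1)`.
-/

set_option autoImplicit false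

noncomputable section

open Complex Filter Function
open UpperHalfPlane hiding I
open scoped Real Topology MatrixGroups Manifold ModularForm

namespace FermatAgent.DeligneSerre.WeightOne

open FermatAgent.ModCurve.Forms (IsMF IsCF)

local notation "𝕢" => Periodic.qParam

/-- `f` is given by the series `∑ c n qⁿ`. -/
def HasCoeff (f : ℍ → ℂ) (c : ℕ → ℂ) : Prop :=
  ∀ τ : ℍ, HasSum (fun n => c n * 𝕢 1 τ ^ n) (f τ)

variable {f g : ℍ → ℂ} {c d : ℕ → ℂ}

theorem HasCoeff.qExpansion_eq (h : HasCoeff f c) : qExpansion 1 f = PowerSeries.mk c :=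
  FermatAgent.ModFun.qExpansion_eq_of_hasSum (FermatAgent.Igusa.mem_cuspRing_of_hasSum h).1
    (FermatAgent.Igusa.mem_cuspRing_of_hasSum h).2.1 fun τ => by simpa using h τ

theorem HasCoeff.qCoeff_eq (h : HasCoeff f c) (n : ℕ) : ModularFormClass.qCoeff f n = c n := by
  rw [ModularFormClass.qCoeff, h.qExpansion_eq, PowerSeries.coeff_mk]

theorem HasCoeff.unique (h : HasCoeff f c) (h' : HasCoeff f d) : c = d :=
  funext fun n => (h.qCoeff_eq n).symm.trans (h'.qCoeff_eq n)

theorem HasCoeff.eq_of_coeff (h : HasCoeff f c) (h' : HasCoeff g c) : f = g :=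
  funext fun τ => (h τ).unique (h' τ)

theorem HasCoeff.congr (h : HasCoeff f c) (e : ∀ n, d n = c n) : HasCoeff f d :=
  fun τ => (h τ).congr_fun fun n => by rw [e]

theorem HasCoeff.congr_fun' (h : HasCoeff f c) (e : g = f) : HasCoeff g c := e ▸ h

theorem hasCoeff_zero : HasCoeff 0 fun _ => 0 := fun τ => by simp [hasSum_zero]

theorem HasCoeff.add (h : HasCoeff f c) (h' : HasCoeff g d) : HasCoeff (f + g) (c + d) :=
  fun τ => by simpa [add_mul] using (h τ).add (h' τ)

theorem HasCoeff.smul (a : ℂ) (h : HasCoeff f c) : HasCoeff (a • f) (a • c) :=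
  fun τ => by simpa [mul_assoc] using (h τ).mul_left a

/-- The coefficients of a product. -/
def conv (c d : ℕ → ℂ) (n : ℕ) : ℂ :=
  ∑ ij ∈ Finset.HasAntidiagonal.antidiagonal n, c ij.1 * d ij.2

theorem conv_eq_coeff_mul (c d : ℕ → ℂ) (n : ℕ) :
    conv c d n = (PowerSeries.mk c * PowerSeries.mk d).coeff n := by
  simp [conv, PowerSeries.coeff_mul]

theorem HasCoeff.mul (h : HasCoeff f c) (h' : HasCoeff g d) : HasCoeff (f * g) (conv c d) := by
  intro τ
  have h1 := (h τ).summable.norm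
  have h2 := (h' τ).summable.norm
  have hs := (summable_sum_mul_antidiagonal_of_summable_mul
    (summable_mul_of_summable_norm h1 h2)).hasSum
  rw [← tsum_mul_tsum_eq_tsum_sum_antidiagonal_of_summable_norm h1 h2, (h τ).tsum_eq,
    (h' τ).tsum_eq] at hs
  refine hs.congr_fun fun n => ?_
  rw [conv, Finset.sum_mul]
  refine Finset.sum_congr rfl fun ij hij => ?_
  rw [← Finset.HasAntidiagonal.mem_antidiagonal.mp hij, pow_add]
  ring

theorem periodic_of_T {k : ℤ} {Γ : Subgroup SL(2, ℤ)} (hT : ModularGroup.T ∈ Γ)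
    (hf : IsMF Γ k f) (τ : ℍ) : f ((1 : ℝ) +ᵥ τ) = f τ := by
  have h := congrFun (hf.inv _ hT) τ
  rw [ModularForm.SL_slash_apply, UpperHalfPlane.modular_T_smul] at h
  simpa [denom, ModularGroup.coe_T] using h

theorem mem_cuspRing_of_isMF {k : ℤ} {Γ : Subgroup SL(2, ℤ)} (hT : ModularGroup.T ∈ Γ)
    (hf : IsMF Γ k f) : f ∈ FermatAgent.ModFun.cuspRing :=
  ⟨hf.holo, periodic_of_T hT hf, .of_bounded hf.bounded⟩

/-- A modular form has an expansion. -/
theorem hasCoeff_of_isMF {k : ℤ} {Γ : Subgroup SL(2, ℤ)} (hT : ModularGroup.T ∈ Γ)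
    (hf : IsMF Γ k f) : HasCoeff f (ModularFormClass.qCoeff f) := fun τ =>
  (FermatAgent.ModFun.hasSum_of_mem (mem_cuspRing_of_isMF hT hf) hf.bounded τ).congr_fun fun n => by
    simp [ModularFormClass.qCoeff]

/-- The constant coefficient of a function vanishing at `i∞` is zero. -/
theorem HasCoeff.coeff_zero (h : HasCoeff f c) (hz : IsZeroAtImInfty f) : c 0 = 0 :=
  tendsto_nhds_unique (FermatAgent.Igusa.tendsto_of_hasSum h) hz

theorem HasCoeff.isBoundedAtImInfty (h : HasCoeff f c) : IsBoundedAtImInfty f :=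
  (FermatAgent.Igusa.mem_cuspRing_of_hasSum h).2.1

section Hecke

variable {p : ℕ}

theorem slash_heckeDiag_apply (k : ℤ) (hp : p ≠ 0) (f : ℍ → ℂ) (τ : ℍ) :
    (f ∣[k] ModularForm.heckeDiagMatrix p) τ =
      (p : ℂ) ^ (k - 1) *
        f (@FermatAgent.Eisenstein.scalePt p ⟨hp⟩ τ) := by
  rw [ModularForm.slash_heckeDiagMatrix_apply k hp]
  congr 2
  exact UpperHalfPlane.ext (by
    rw [ModularForm.coe_heckeDiagMatrix_smul hp]; rfl)

/-- The coefficients of `f ∣ diag(p, 1)`. -/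
def diagCoeff (k : ℤ) (p : ℕ) (c : ℕ → ℂ) (n : ℕ) : ℂ :=
  if p ∣ n then (p : ℂ) ^ (k - 1) * c (n / p) else 0

theorem HasCoeff.slash_diag (h : HasCoeff f c) (k : ℤ) (hp : p ≠ 0) :
    HasCoeff (f ∣[k] ModularForm.heckeDiagMatrix p) (diagCoeff k p c) := by
  intro τ
  have : NeZero p := ⟨hp⟩
  rw [slash_heckeDiag_apply k hp]
  have hq : 𝕢 1 (FermatAgent.Eisenstein.scalePt p τ : ℂ) = 𝕢 1 (τ : ℂ) ^ p := by
    simp only [Periodic.qParam, FermatAgent.Eisenstein.coe_scalePt, ← Complex.exp_nat_mul]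
    push_cast
    ring_nf
  have h1 := (h (FermatAgent.Eisenstein.scalePt p τ)).mul_left ((p : ℂ) ^ (k - 1))
  simp only [hq, ← pow_mul] at h1
  have hi : Function.Injective (fun n : ℕ => p * n) := mul_right_injective₀ hp
  refine (hi.hasSum_iff ?_).mp (h1.congr_fun fun n => ?_)
  · intro n hn
    have : ¬ p ∣ n := fun ⟨m, hm⟩ => hn ⟨m, hm.symm⟩
    simp [diagCoeff, this]
  · simp only [Function.comp_apply, diagCoeff, dvd_mul_right, if_true,
      Nat.mul_div_cancel_left _ (Nat.pos_of_ne_zero hp)]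
    ring

/-- The coefficients of `U_p f`. -/
def uCoeff (p : ℕ) (c : ℕ → ℂ) (n : ℕ) : ℂ := c (p * n)

theorem HasCoeff.heckeU (h : HasCoeff f c) (k : ℤ) (hp : p ≠ 0) :
    HasCoeff (ModularForm.heckeU k p f) (uCoeff p c) := by
  intro τ
  have : NeZero p := ⟨hp⟩
  rw [ModularForm.heckeU_apply k hp]
  set w := 𝕢 1 ((τ : ℂ) / p) with hw
  set ζ := Complex.exp (2 * Real.pi * Complex.I / p) with hζ
  have hpC : (p : ℂ) ≠ 0 := Nat.cast_ne_zero.mpr hp
  have hprim : IsPrimitiveRoot ζ p := Complex.isPrimitiveRoot_exp p hp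
  have hq : ∀ j : ℕ, 𝕢 1 ((ModularForm.heckeMatrix p j • τ : ℍ) : ℂ) = ζ ^ j * w := by
    intro j
    rw [ModularForm.coe_heckeMatrix_smul hp]
    simp only [Periodic.qParam, hζ, hw, ← Complex.exp_nat_mul, ← Complex.exp_add]
    push_cast
    congr 1
    field_simp
    ring
  have h1 : HasSum (fun n : ℕ => (p : ℂ)⁻¹ * (c n * w ^ n * ∑ j ∈ Finset.range p, (ζ ^ n) ^ j))
      ((p : ℂ)⁻¹ * ∑ j ∈ Finset.range p, f (ModularForm.heckeMatrix p j • τ)) := by
    refine HasSum.mul_left _ ?_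
    refine (hasSum_sum (s := Finset.range p) fun j _ =>
      h (ModularForm.heckeMatrix p j • τ)).congr_fun fun n => ?_
    rw [Finset.mul_sum]
    refine Finset.sum_congr rfl fun j _ => ?_
    rw [hq j, mul_pow, ← pow_mul, ← pow_mul, mul_comm j n]
    ring
  have hi : Function.Injective (fun n : ℕ => p * n) := mul_right_injective₀ hp
  refine ((hi.hasSum_iff ?_).mpr h1).congr_fun fun n => ?_
  · intro n hn
    have hne : ζ ^ n ≠ 1 := fun h2 => hn ⟨n / p, Nat.mul_div_cancel'
      ((hprim.pow_eq_one_iff_dvd n).mp h2)⟩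
    rw [geom_sum_eq hne, ← pow_mul, mul_comm n p, pow_mul, hprim.pow_eq_one, one_pow, sub_self,
      zero_div, mul_zero, mul_zero]
  · have hwp : w ^ p = 𝕢 1 (τ : ℂ) := by
      simp only [Periodic.qParam, hw, ← Complex.exp_nat_mul]
      congr 1
      push_cast
      field_simp
    simp only [Function.comp_apply, uCoeff, pow_mul, hwp, hprim.pow_eq_one, one_pow,
      Finset.sum_const, Finset.card_range, nsmul_one]
    field_simp

end Hecke

end FermatAgent.DeligneSerre.WeightOne
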