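import Mathlib.Analysis.Normed.Group.Tannery
import Fermat.Agent.Igusa.Fibre.Lipschitz

/-!
# The series `∑ₙ 1/(w+n)³`

For a non-integer `w` it equals `(-2πi)³/2 · u(1+u)/(1-u)³` with `u = exp(2πiw)`.
-/

set_option autoImplicit false

noncomputable section

open Complex Filter
open scoped Real Topology UpperHalfPlane

namespace FermatAgent.DeligneSerre.WeightOne

open FermatAgent.Igusa (expTwoPi expTwoPi_eq_one_iff expTwoPi_neg norm_expTwoPi_lt_one
  expTwoPi_ne_zero)

/-- `∑ₙ 1/(w+n)³` over all integers. -/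
def intInvCubeSum (w : ℂ) : ℂ := ∑' n : ℤ, 1 / (w + n) ^ 3

/-- The rational function `u ↦ u(1+u)/(1-u)³`. -/
def cubeKoebe {K : Type*} [Field K] (u : K) : K := u * (1 + u) / (1 - u) ^ 3

theorem cubeKoebe_inv {K : Type*} [Field K] {u : K} (hu : u ≠ 0) :
    cubeKoebe u⁻¹ = -cubeKoebe u := by
  rcases eq_or_ne u 1 with rfl | h1
  · simp [cubeKoebe]
  have h : (1 : K) - u ≠ 0 := sub_ne_zero.mpr (Ne.symm h1)
  have h' : (1 : K) - u⁻¹ = -(1 - u) / u := by field_simp; ring
  rw [cubeKoebe, cubeKoebe, h']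
  field_simp
  ring

theorem summable_intInvCube (w : ℂ) : Summable fun n : ℤ => 1 / (w + n) ^ 3 := by
  refine (EisensteinSeries.linear_right_summable w 1 (k := 3) (by norm_num)).congr fun n => ?_
  simp [zpow_ofNat]

theorem intInvCubeSum_neg (w : ℂ) : intInvCubeSum (-w) = -intInvCubeSum w := by
  unfold intInvCubeSum
  rw [← (Equiv.neg ℤ).tsum_eq, ← tsum_neg]
  refine tsum_congr fun n => ?_
  simp only [Equiv.neg_apply, Int.cast_neg]
  rw [show -w + -(n : ℂ) = -(w + n) by ring, Odd.neg_pow (by decide), div_neg]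

theorem hasSum_sq_mul_geometric {r : ℂ} (hr : ‖r‖ < 1) :
    HasSum (fun n : ℕ => (n : ℂ) ^ 2 * r ^ n) (cubeKoebe r) := by
  have h0 := hasSum_geometric_of_norm_lt_one hr
  have h1 := hasSum_coe_mul_geometric_of_norm_lt_one hr
  have h2 := hasSum_choose_mul_geometric_of_norm_lt_one 2 hr
  have hc : ∀ n : ℕ, (((n + 2).choose 2 : ℕ) : ℂ) = ((n : ℂ) + 1) * ((n : ℂ) + 2) / 2 := fun n => by
    rw [Nat.cast_choose_two]
    push_cast
    ring
  have hne : (1 : ℂ) - r ≠ 0 := sub_ne_zero.mpr fun h => by simp [← h] at hr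
  have h := ((h2.mul_left 2).sub (h1.mul_left 3)).sub (h0.mul_left 2)
  have e : 2 * (1 / (1 - r) ^ (2 + 1)) - 3 * (r / (1 - r) ^ 2) - 2 * (1 - r)⁻¹ = cubeKoebe r := by
    rw [cubeKoebe]
    field_simp
    ring
  rw [e] at h
  refine h.congr_fun fun n => ?_
  rw [hc]
  ring

theorem intInvCubeSum_of_im_pos {w : ℂ} (hw : 0 < w.im) :
    intInvCubeSum w = (-2 * π * I) ^ 3 / 2 * cubeKoebe (expTwoPi w) := by
  have h := EisensteinSeries.qExpansion_identity (k := 2) (by norm_num) ⟨w, hw⟩
  simp only [Nat.factorial_two, Nat.cast_ofNat] at h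
  rw [intInvCubeSum, h]
  congr 1
  exact (hasSum_sq_mul_geometric (norm_expTwoPi_lt_one hw)).tsum_eq

theorem intInvCubeSum_eq {w : ℂ} (hw : ∀ n : ℤ, w + n ≠ 0) :
    intInvCubeSum w = (-2 * π * I) ^ 3 / 2 * cubeKoebe (expTwoPi w) := by
  rcases lt_trichotomy 0 w.im with h | h | h
  · exact intInvCubeSum_of_im_pos h
  · have hne : (1 : ℂ) - expTwoPi w ≠ 0 := by
      rw [sub_ne_zero, ne_comm, Ne, expTwoPi_eq_one_iff]
      rintro ⟨n, rfl⟩
      exact hw (-n) (by simp)
    have hpath : Tendsto (fun t : ℝ => w + t * I) (𝓝[>] 0) (𝓝 w) := by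
      have : Continuous fun t : ℝ => w + t * I := by fun_prop
      simpa using (this.tendsto 0).mono_left nhdsWithin_le_nhds
    have h1 : Tendsto (fun t : ℝ => intInvCubeSum (w + t * I)) (𝓝[>] 0)
        (𝓝 (intInvCubeSum w)) := by
      refine tendsto_tsum_of_dominated_convergence (bound := fun n : ℤ => ‖1 / (w + n) ^ 3‖)
        (summable_intInvCube w).norm (fun n => ?_) (Eventually.of_forall fun t n => ?_)
      · have hc : ContinuousAt (fun v : ℂ => 1 / (v + n) ^ 3) w :=
          continuousAt_const.div (by fun_prop) (pow_ne_zero 3 (hw n))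
        exact Tendsto.comp (g := fun v : ℂ => 1 / (v + n) ^ 3) hc hpath
      · rw [norm_div, norm_div, norm_one, norm_pow, norm_pow]
        have hle : ‖w + n‖ ≤ ‖w + t * I + n‖ := by
          rw [Complex.norm_def, Complex.norm_def]
          apply Real.sqrt_le_sqrt
          simp only [Complex.normSq_apply, Complex.add_re, Complex.add_im, Complex.mul_re,
            Complex.mul_im, Complex.ofReal_re, Complex.ofReal_im, Complex.I_re, Complex.I_im,
            Complex.intCast_re, Complex.intCast_im, ← h]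
          nlinarith [mul_self_nonneg t]
        gcongr
        exact pow_pos (norm_pos_iff.mpr (hw n)) 3
    have hK : ContinuousAt (fun v => (-2 * π * I) ^ 3 / 2 * cubeKoebe (expTwoPi v)) w := by
      refine continuousAt_const.mul ?_
      refine ContinuousAt.div (by unfold FermatAgent.Igusa.expTwoPi; fun_prop)
        (by unfold FermatAgent.Igusa.expTwoPi; fun_prop) ?_
      exact pow_ne_zero 3 hne
    refine tendsto_nhds_unique h1 ((hK.tendsto.comp hpath).congr' ?_)
    filter_upwards [self_mem_nhdsWithin] with t ht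
    refine (intInvCubeSum_of_im_pos ?_).symm
    simpa [← h] using ht
  · rw [← neg_neg w, intInvCubeSum_neg, intInvCubeSum_of_im_pos (by simpa using h), expTwoPi_neg,
      cubeKoebe_inv (expTwoPi_ne_zero w), neg_neg]
    ring

end FermatAgent.DeligneSerre.WeightOne
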