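import Fermat.Agent.Igusa.Fibre.WpRows
import Fermat.Agent.DeligneSerre.WeightOne.CubeSum

/-!
# The series `∑ₘ F(ω t^{mL+c})` for `F u = u(1+u)/(1-u)³ = ∑ r² uʳ`

It is the power series in `t` whose `n`-th coefficient is `∑_{d ∣ n, d ≡ c (L)} (n/d)² ω^{n/d}`.
-/

set_option autoImplicit false

noncomputable section

open Complex

namespace FermatAgent.DeligneSerre.WeightOne

/-- `∑_{d ∣ n, d ≡ c mod L} (n/d)² ω^{n/d}`. -/
def sqArith {K : Type*} [CommRing K] (L c : ℕ) (ω : K) (n : ℕ) : K :=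
  ∑ d ∈ n.divisors.filter (fun d => d % L = c % L), ((n / d : ℕ) : K) ^ 2 * ω ^ (n / d)

theorem sqArith_congr {K : Type*} [CommRing K] {L c c' : ℕ} (h : c % L = c' % L) (ω : K)
    (n : ℕ) : sqArith L c ω n = sqArith L c' ω n := by
  simp [sqArith, h]

theorem sqArith_zero {K : Type*} [CommRing K] (L c : ℕ) (ω : K) : sqArith L c ω 0 = 0 := by
  simp [sqArith]

theorem sqArith_of_lt {K : Type*} [CommRing K] {L c n : ℕ} (ω : K) (hc : c ≤ L) (hn : n < c) :
    sqArith L c ω n = 0 := by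
  rw [sqArith, Finset.sum_eq_zero]
  intro d hd
  rw [Finset.mem_filter, Nat.mem_divisors] at hd
  exfalso
  have hd0 : 0 < d := Nat.pos_of_ne_zero fun h => hd.1.2 (by simpa [h] using hd.1.1)
  have hdn : d ≤ n := Nat.le_of_dvd (Nat.pos_of_ne_zero hd.1.2) hd.1.1
  rcases hc.lt_or_eq with hc' | hc'
  · rw [Nat.mod_eq_of_lt (by omega), Nat.mod_eq_of_lt hc'] at hd; omega
  · rw [hc', Nat.mod_self, Nat.mod_eq_of_lt (by omega)] at hd; omega

theorem sqArith_of_not_dvd {K : Type*} [CommRing K] {L c n : ℕ} (ω : K) (hc : L ∣ c)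
    (hn : ¬ L ∣ n) : sqArith L c ω n = 0 := by
  rw [sqArith, Finset.sum_eq_zero]
  intro d hd
  rw [Finset.mem_filter, Nat.mem_divisors, Nat.mod_eq_zero_of_dvd hc] at hd
  exact absurd ((Nat.dvd_of_mod_eq_zero hd.2).trans hd.1.1) hn

theorem hasSum_sqArith {L c : ℕ} (hL : 0 < L) (hc : 0 < c) (hcL : c ≤ L) {ω t : ℂ}
    (hω : ‖ω‖ = 1) (ht : ‖t‖ < 1) :
    ∃ S : ℂ, HasSum (fun m : ℕ => cubeKoebe (ω * t ^ (m * L + c))) S ∧
      HasSum (fun n : ℕ => sqArith L c ω n * t ^ n) S := by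
  obtain ⟨f, hf⟩ : ∃ f : ℕ × ℕ → ℂ,
      f = fun p => (p.2 : ℂ) ^ 2 * (ω * t ^ (p.1 * L + c)) ^ p.2 := ⟨_, rfl⟩
  have hexp : ∀ m r : ℕ, 1 ≤ r → m + r ≤ (m * L + c) * r := fun m r hr => by
    have h1 : m ≤ m * L * r := by
      rw [mul_assoc]
      exact Nat.le_mul_of_pos_right _ (Nat.mul_pos hL hr)
    have h2 : r ≤ c * r := Nat.le_mul_of_pos_left r hc
    rw [add_mul]
    omega
  have hbound : ∀ p : ℕ × ℕ, ‖f p‖ ≤ ‖t‖ ^ p.1 * ((p.2 : ℝ) ^ 2 * ‖t‖ ^ p.2) := by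
    rintro ⟨m, r⟩
    rcases Nat.eq_zero_or_pos r with rfl | hr
    · simp [hf]
    · simp only [hf, norm_mul, norm_pow, hω, one_mul, Complex.norm_natCast, ← pow_mul]
      rw [mul_left_comm, ← pow_add]
      exact mul_le_mul_of_nonneg_left
        (pow_le_pow_of_le_one (norm_nonneg t) ht.le (hexp m r hr)) (sq_nonneg _)
  have hsum : Summable f := by
    have hg : Summable fun r : ℕ => (r : ℝ) ^ 2 * ‖t‖ ^ r :=
      summable_pow_mul_geometric_of_norm_lt_one (R := ℝ) 2 (r := ‖t‖) (by rwa [norm_norm])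
    have hg0 : ∀ r : ℕ, 0 ≤ (r : ℝ) ^ 2 * ‖t‖ ^ r :=
      fun r => mul_nonneg (sq_nonneg _) (pow_nonneg (norm_nonneg t) r)
    have hh0 : ∀ m : ℕ, 0 ≤ ‖t‖ ^ m := fun m => pow_nonneg (norm_nonneg t) m
    have hprod := Summable.mul_of_nonneg (summable_geometric_of_lt_one (norm_nonneg t) ht) hg
      hh0 hg0
    exact Summable.of_norm_bounded hprod hbound
  have hfib : ∀ m, HasSum (fun r => f (m, r)) (cubeKoebe (ω * t ^ (m * L + c))) := fun m => by
    have hlt : ‖ω * t ^ (m * L + c)‖ < 1 := by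
      rw [norm_mul, norm_pow, hω, one_mul]
      exact pow_lt_one₀ (norm_nonneg t) ht (by omega)
    have h := hasSum_sq_mul_geometric hlt
    simpa only [hf] using h
  refine ⟨∑' p, f p, hsum.hasSum.prod_fiberwise hfib, ?_⟩
  refine (hsum.hasSum.tsum_fiberwise (fun p : ℕ × ℕ => (p.1 * L + c) * p.2)).congr_fun fun n => ?_
  rcases Nat.eq_zero_or_pos n with rfl | hn
  · rw [sqArith_zero, zero_mul]
    refine ((tsum_congr fun p => ?_).trans tsum_zero).symm
    obtain ⟨⟨m, r⟩, hp⟩ := p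
    simp only [Set.mem_preimage, Set.mem_singleton_iff, mul_eq_zero] at hp
    rcases hp with hp | hp
    · omega
    · simp [hf, hp]
  have hmem : ∀ d ∈ n.divisors.filter (fun d => d % L = c % L), c ≤ d ∧ L ∣ d - c ∧ d ∣ n := by
    intro d hd
    rw [Finset.mem_filter, Nat.mem_divisors] at hd
    obtain ⟨⟨hdn, -⟩, hdc⟩ := hd
    have hd0 : 0 < d := Nat.pos_of_dvd_of_pos hdn hn
    have hcd : c ≤ d := by
      rcases hcL.lt_or_eq with h | rfl
      · rw [Nat.mod_eq_of_lt h] at hdc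
        exact hdc ▸ Nat.mod_le d L
      · rw [Nat.mod_self] at hdc
        exact Nat.le_of_dvd hd0 (Nat.dvd_of_mod_eq_zero hdc)
    exact ⟨hcd, (Nat.modEq_iff_dvd' hcd).mp hdc.symm, hdn⟩
  set φ : ℕ → ℕ × ℕ := fun d => ((d - c) / L, n / d) with hφ
  have hφinv : ∀ d ∈ n.divisors.filter (fun d => d % L = c % L),
      (φ d).1 * L + c = d ∧ ((φ d).1 * L + c) * (φ d).2 = n := by
    intro d hd
    obtain ⟨hcd, hLd, hdn⟩ := hmem d hd
    have h1 : (φ d).1 * L + c = d := by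
      simp only [hφ, Nat.div_mul_cancel hLd]
      omega
    exact ⟨h1, by rw [h1]; exact Nat.mul_div_cancel' hdn⟩
  symm
  rw [tsum_subtype ((fun p : ℕ × ℕ => (p.1 * L + c) * p.2) ⁻¹' {n}) f,
    tsum_eq_sum (s := (n.divisors.filter (fun d => d % L = c % L)).image φ) ?_]
  · rw [Finset.sum_image, sqArith, Finset.sum_mul]
    · refine Finset.sum_congr rfl fun d hd => ?_
      rw [Set.indicator_of_mem (by simpa using (hφinv d hd).2)]
      simp only [hf]
      rw [(hφinv d hd).1, mul_pow, ← pow_mul, show d * (φ d).2 = n by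
        simpa [(hφinv d hd).1] using (hφinv d hd).2]
      simp [hφ, mul_assoc]
    · intro d hd d' hd' h
      rw [← (hφinv d hd).1, ← (hφinv d' hd').1, h]
  · rintro ⟨m, r⟩ hp
    refine Set.indicator_of_notMem (fun hn' => hp ?_) _
    simp only [Set.mem_preimage, Set.mem_singleton_iff] at hn'
    refine Finset.mem_image.mpr ⟨m * L + c, ?_, ?_⟩
    · rw [Finset.mem_filter, Nat.mem_divisors]
      exact ⟨⟨⟨r, hn'.symm⟩, by omega⟩, by simp [Nat.add_mod]⟩
    · simp only [hφ, Nat.add_sub_cancel, Nat.mul_div_cancel _ hL, Prod.mk.injEq, true_and]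
      rw [← hn']
      exact Nat.mul_div_cancel_left r (by omega)

end FermatAgent.DeligneSerre.WeightOne
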