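import Fermat.Agent.Igusa.Fibre.WpProps
import Fermat.Agent.DeligneSerre.WeightOne.SquareRows

/-!
# The derivative `℘'` at division points

`wpDeriv L (a, b) τ = (-2πi)⁻³ ℘'(τℤ+ℤ, (aτ+b)/L)`; its transformation under `SL(2, ℤ)` and its
expansion in `t = exp(2πiτ/L)`.
-/

set_option autoImplicit false

noncomputable section

open Complex Filter
open scoped Real Topology UpperHalfPlane MatrixGroups

namespace FermatAgent.DeligneSerre.WeightOne

open FermatAgent.Igusa (pairTau divPoint NonzeroMod vecMulSL tParam zetaRoot expTwoPi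
  divPoint_mem_lattice_iff divPoint_congr)

/-- The normalised value of `℘'` at a division point. -/
def wpDeriv (L : ℕ) (v : ℤ × ℤ) (τ : ℍ) : ℂ :=
  ((-2 * π * I) ^ 3)⁻¹ * (pairTau τ).derivWeierstrassP (divPoint L v τ)

variable {L : ℕ}

theorem wpDeriv_congr (hL : 0 < L) {v w : ℤ × ℤ} (h1 : (L : ℤ) ∣ v.1 - w.1)
    (h2 : (L : ℤ) ∣ v.2 - w.2) (τ : ℍ) : wpDeriv L v τ = wpDeriv L w τ := by
  obtain ⟨l, hl⟩ := divPoint_congr hL h1 h2 τ
  rw [wpDeriv, wpDeriv, hl, PeriodPair.derivWeierstrassP_add_coe]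

theorem derivWeierstrassP_homogeneous (P Q : PeriodPair) (e : ℤ × ℤ ≃ ℤ × ℤ) {c : ℂ}
    (he : ∀ p, c * (P.latticeEquivProd.symm p : ℂ) = (Q.latticeEquivProd.symm (e p) : ℂ))
    (hc : c ≠ 0) (z : ℂ) : P.derivWeierstrassP z = c ^ 3 * Q.derivWeierstrassP (c * z) := by
  have hQ := Q.hasSum_derivWeierstrassP (c * z)
  rw [← Q.latticeEquivProd.symm.toEquiv.hasSum_iff, ← e.hasSum_iff] at hQ
  have hP := P.hasSum_derivWeierstrassP z
  rw [← P.latticeEquivProd.symm.toEquiv.hasSum_iff] at hP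
  refine hP.unique ((hQ.mul_left (c ^ 3)).congr_fun fun p => ?_)
  simp only [Function.comp_apply, LinearEquiv.coe_toEquiv, ← he p]
  rw [← mul_sub, mul_pow]
  field_simp

theorem wpDeriv_smul (L : ℕ) (v : ℤ × ℤ) (γ : SL(2, ℤ)) (τ : ℍ) :
    wpDeriv L v (γ • τ) = ((γ 1 0 : ℂ) * τ + γ 1 1) ^ 3 * wpDeriv L (vecMulSL v γ) τ := by
  set c : ℂ := (γ 1 0 : ℂ) * τ + γ 1 1 with hcdef
  have hc : c ≠ 0 := UpperHalfPlane.denom_ne_zero (γ : GL (Fin 2) ℝ) τ
  have hτ : ((γ • τ : ℍ) : ℂ) = ((γ 0 0 : ℂ) * τ + γ 0 1) / c := by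
    rw [UpperHalfPlane.coe_specialLinearGroup_apply]
    simp [hcdef]
  let e : ℤ × ℤ ≃ ℤ × ℤ :=
    { toFun := fun p => vecMulSL p γ
      invFun := fun p => vecMulSL p γ⁻¹
      left_inv := fun p => by
        simp [← FermatAgent.Igusa.vecMulSL_mul, FermatAgent.Igusa.vecMulSL_one]
      right_inv := fun p => by
        simp [← FermatAgent.Igusa.vecMulSL_mul, FermatAgent.Igusa.vecMulSL_one] }
  have he : ∀ p, c * ((pairTau (γ • τ)).latticeEquivProd.symm p : ℂ)
      = ((pairTau τ).latticeEquivProd.symm (e p) : ℂ) := fun p => by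
    simp only [PeriodPair.latticeEquiv_symm_apply]
    simp only [pairTau, hτ, e, Equiv.coe_fn_mk, vecMulSL, Int.cast_add, Int.cast_mul]
    field_simp
    rw [hcdef]
    ring
  rw [wpDeriv, wpDeriv, derivWeierstrassP_homogeneous _ _ e he hc, show c * divPoint L v (γ • τ)
      = divPoint L (vecMulSL v γ) τ by
    simp only [divPoint, hτ, vecMulSL, Int.cast_add, Int.cast_mul]
    field_simp
    rw [hcdef]
    ring]
  ring

theorem derivWeierstrassP_eq_rows (τ : ℍ) (z : ℂ) :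
    HasSum (fun m : ℤ => -2 * intInvCubeSum (z - (m : ℂ) * τ))
      ((pairTau τ).derivWeierstrassP z) := by
  have h := (pairTau τ).hasSum_derivWeierstrassP z
  rw [← (pairTau τ).latticeEquivProd.symm.toEquiv.hasSum_iff] at h
  refine h.prod_fiberwise fun m => ?_
  simp only [Function.comp_apply, LinearEquiv.coe_toEquiv, PeriodPair.latticeEquiv_symm_apply]
  have h2 := ((summable_intInvCube (z - (m : ℂ) * τ)).hasSum).mul_left (-2)
  rw [← (Equiv.neg ℤ).hasSum_iff] at h2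
  refine h2.congr_fun fun n => ?_
  simp only [Function.comp_apply, Equiv.neg_apply, Int.cast_neg, pairTau, mul_one_div]
  congr 1
  ring

/-- The coefficients of the expansion of `wpDeriv L (a, b)`, with `ω = exp(2πib/L)`. -/
def wpDerivCoeff {K : Type*} [Field K] (L a : ℕ) (ω : K) (n : ℕ) : K :=
  if n = 0 then (if a = 0 then -cubeKoebe ω else 0)
  else sqArith L (L - a) ω⁻¹ n - sqArith L a ω n

theorem wpDerivCoeff_of_lt {K : Type*} [Field K] {a n : ℕ} (ω : K) (ha : a < L)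
    (h1 : n < a) (h2 : n < L - a) : wpDerivCoeff L a ω n = 0 := by
  rw [wpDerivCoeff]
  split_ifs with hn ha0
  · omega
  · rfl
  · rw [sqArith_of_lt _ (Nat.sub_le L a) h2, sqArith_of_lt _ ha.le h1, sub_zero]

theorem hasSum_wpDeriv (hL : 0 < L) {a : ℕ} (ha : a < L) (b : ℤ)
    (hv : NonzeroMod L ((a : ℤ), b)) (τ : ℍ) :
    HasSum (fun n : ℕ => wpDerivCoeff L a (zetaRoot L ^ b) n * tParam L τ ^ n)
      (wpDeriv L ((a : ℤ), b) τ) := by
  set v : ℤ × ℤ := ((a : ℤ), b) with hvdef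
  set z : ℂ := divPoint L v τ with hz
  set t : ℂ := tParam L τ with ht
  set ω : ℂ := zetaRoot L ^ b with hω
  set C : ℂ := (-2 * π * I) ^ 3 with hC
  have hC0 : C ≠ 0 := by simp [hC, Real.pi_ne_zero]
  have hexp : ∀ m : ℤ, expTwoPi (z + (m : ℂ) * τ) = ω * t ^ ((a : ℤ) + m * L) := fun m =>
    (FermatAgent.Igusa.expTwoPi_nat L v τ m).resolve_right hL.ne'
  have hne : ∀ m n : ℤ, z + (m : ℂ) * τ + n ≠ 0 := fun m n h => by
    refine hv ((divPoint_mem_lattice_iff hL v τ).mp ?_)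
    rw [FermatAgent.Igusa.mem_pairTau_lattice]
    exact ⟨-m, -n, by rw [hz] at h; push_cast; linear_combination -h⟩
  have hrow : ∀ m : ℤ, intInvCubeSum (z + (m : ℂ) * τ) =
      C / 2 * cubeKoebe (ω * t ^ ((a : ℤ) + m * L)) := fun m => by
    rw [intInvCubeSum_eq (hne m), hexp, hC]
  have hω0 : ω ≠ 0 := by
    rw [hω, FermatAgent.Igusa.zetaRoot_zpow]; exact FermatAgent.Igusa.expTwoPi_ne_zero _
  have ht0 : t ≠ 0 := by rw [ht, tParam]; exact FermatAgent.Igusa.expTwoPi_ne_zero _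
  obtain ⟨S₁, hS₁, hT₁⟩ := hasSum_sqArith (L := L) (c := L + a - L * (if a = 0 then 0 else 1))
    hL (by split_ifs <;> omega) (by split_ifs <;> omega)
    (FermatAgent.Igusa.norm_zetaRoot_zpow L b) (FermatAgent.Igusa.norm_tParam_lt_one hL τ)
  obtain ⟨S₂, hS₂, hT₂⟩ := hasSum_sqArith (L := L) (c := L - a) hL (by omega) (by omega)
    (ω := ω⁻¹) (by rw [hω, norm_inv, FermatAgent.Igusa.norm_zetaRoot_zpow, inv_one])
    (FermatAgent.Igusa.norm_tParam_lt_one hL τ)
  set κ : ℂ := if a = 0 then cubeKoebe ω else 0 with hκ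
  have hneg : HasSum (fun k : ℕ => -2 * intInvCubeSum (z + (k : ℂ) * τ)) (-C * (κ + S₁)) := by
    have hterm : ∀ k : ℕ, -2 * intInvCubeSum (z + (k : ℂ) * τ) =
        -C * cubeKoebe (ω * t ^ (a + k * L)) := fun k => by
      have := hrow (k : ℤ)
      push_cast at this
      rw [this, show ((a : ℤ) + (k : ℤ) * L) = ((a + k * L : ℕ) : ℤ) by push_cast; ring,
        zpow_natCast]
      ring
    rcases Nat.eq_zero_or_pos a with ha0 | ha0
    · subst ha0
      refine (hasSum_nat_add_iff' 1).mp ?_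
      rw [Finset.range_one, Finset.sum_singleton, hterm 0, hκ, if_pos rfl]
      simp only [zero_mul, add_zero, pow_zero, mul_one]
      rw [show -C * (cubeKoebe ω + S₁) - -C * cubeKoebe ω = -C * S₁ by ring]
      refine (hS₁.mul_left (-C)).congr_fun fun k => ?_
      rw [hterm]
      simp only [if_pos, mul_zero, add_zero, Nat.sub_zero, hω, ht]
      ring_nf
    · rw [hκ, if_neg ha0.ne', zero_add]
      refine (hS₁.mul_left (-C)).congr_fun fun k => ?_
      rw [hterm]
      simp only [if_neg ha0.ne', mul_one, Nat.add_sub_cancel_left]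
      rw [add_comm a]
  have hpos : HasSum (fun k : ℕ => -2 * intInvCubeSum (z + ((-((k : ℤ) + 1) : ℤ) : ℂ) * τ))
      (C * S₂) := by
    refine (hS₂.mul_left C).congr_fun fun k => ?_
    rw [hrow]
    have hinv : ω * t ^ ((a : ℤ) + -((k : ℤ) + 1) * L) = (ω⁻¹ * t ^ (k * L + (L - a)))⁻¹ := by
      rw [mul_inv, inv_inv, ← zpow_natCast, ← zpow_neg]
      congr 2
      push_cast [Nat.cast_sub ha.le]
      ring
    rw [hinv, cubeKoebe_inv (mul_ne_zero (inv_ne_zero hω0) (pow_ne_zero _ ht0))]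
    ring
  have hall : HasSum (fun m : ℤ => -2 * intInvCubeSum (z - (m : ℂ) * τ))
      (-C * (κ + S₁) + C * S₂) := by
    have := HasSum.of_nat_of_neg_add_one
      (f := fun m : ℤ => -2 * intInvCubeSum (z + (m : ℂ) * τ))
      (m := -C * (κ + S₁)) (hneg.congr_fun fun k => by simp) hpos
    rw [← (Equiv.neg ℤ).hasSum_iff] at this
    refine this.congr_fun fun m => ?_
    simp [sub_eq_add_neg]
  have hval : wpDeriv L v τ = -κ + (S₂ - S₁) := by
    rw [wpDeriv, ← hC, (derivWeierstrassP_eq_rows τ z).unique hall]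
    field_simp
    ring
  rw [hval]
  refine ((hasSum_ite_eq 0 (-κ : ℂ)).add (hT₂.sub hT₁)).congr_fun fun n => ?_
  rcases eq_or_ne n 0 with rfl | hn
  · simp only [wpDerivCoeff, sqArith_zero, hκ, if_true]
    split_ifs <;> simp
  · rw [if_neg hn, zero_add, wpDerivCoeff, if_neg hn, sub_mul]
    congr 2
    apply sqArith_congr
    split_ifs with h <;> simp [h]

end FermatAgent.DeligneSerre.WeightOne
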