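import Fermat.Agent.Igusa.Fibre.WpFun
import Fermat.Agent.DeligneSerre.WeightOne.Expansion
import Fermat.Agent.DeligneSerre.WeightOne.WpDeriv

/-!
# The weight one form `℘'(u) / (℘(u) - ℘(2u))` at a point `u` of prime order `L ≥ 5`
-/

set_option autoImplicit false

noncomputable section

open Complex Filter Function CongruenceSubgroup
open UpperHalfPlane hiding I
open scoped Real Topology MatrixGroups Manifold ModularForm

namespace FermatAgent.DeligneSerre.WeightOne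

open FermatAgent.Igusa (NonzeroMod vecMulSL wpDiff wpDiff_smul hasSum_wpDiff wpDiff_ne_zero
  wpDiffCoeff vecHeight PMEq)
open FermatAgent.ModFun (dil)
open FermatAgent.ModCurve.Forms (IsMF)

local notation "𝕢" => Periodic.qParam

variable {L : ℕ}

/-- `℘'(u) / (℘(u) - ℘(2u))`. -/
def ratioFun (L : ℕ) (u : ℤ × ℤ) (τ : ℍ) : ℂ := wpDeriv L u τ / wpDiff L u (u + u) τ

/-- The hypotheses on an index. -/
structure RatioAdm (L : ℕ) (u : ℤ × ℤ) : Prop where
  left : NonzeroMod L u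
  right : NonzeroMod L (u + u)
  ne : ¬ PMEq L u (u + u)

theorem ratioAdm_of_prime (hL : L.Prime) (h5 : 5 ≤ L) {u : ℤ × ℤ} (hu : NonzeroMod L u) :
    RatioAdm L u := by
  have hp : Prime (L : ℤ) := Nat.prime_iff_prime_int.mp hL
  have key : ∀ c : ℕ, 0 < c → c < L → ∀ x : ℤ, (L : ℤ) ∣ (c : ℤ) * x → (L : ℤ) ∣ x :=
    fun c hc hcL x h => (hp.dvd_or_dvd h).resolve_left fun h' =>
      absurd (Nat.le_of_dvd hc (Int.natCast_dvd_natCast.mp h')) (by omega)
  refine ⟨hu, fun h => hu ⟨key 2 (by omega) (by omega) _ ?_, key 2 (by omega) (by omega) _ ?_⟩, ?_⟩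
  · simpa [two_mul] using h.1
  · simpa [two_mul] using h.2
  rintro (⟨h1, h2⟩ | ⟨h1, h2⟩)
  · exact hu ⟨by simpa using h1, by simpa using h2⟩
  · exact hu ⟨key 3 (by omega) (by omega) _ (by convert h1 using 1; simp; ring),
      key 3 (by omega) (by omega) _ (by convert h2 using 1; simp; ring)⟩

theorem ratioFun_congr (hL : 0 < L) {u w : ℤ × ℤ} (h1 : (L : ℤ) ∣ u.1 - w.1)
    (h2 : (L : ℤ) ∣ u.2 - w.2) : ratioFun L u = ratioFun L w := by
  funext τ
  simp only [ratioFun, wpDiff, wpDeriv_congr hL h1 h2, FermatAgent.Igusa.pDiv_congr hL h1 h2]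
  rw [FermatAgent.Igusa.pDiv_congr hL (v := u + u) (w := w + w)
    (by simpa [add_sub_add_comm] using dvd_add h1 h1)
    (by simpa [add_sub_add_comm] using dvd_add h2 h2)]

theorem ratioFun_slash (L : ℕ) (u : ℤ × ℤ) (γ : SL(2, ℤ)) :
    ratioFun L u ∣[(1 : ℤ)] γ = ratioFun L (vecMulSL u γ) := by
  funext τ
  have hd : denom (γ : GL (Fin 2) ℝ) τ = (γ 1 0 : ℂ) * τ + γ 1 1 := by simp [denom]
  have hc : ((γ 1 0 : ℂ) * τ + γ 1 1) ≠ 0 := FermatAgent.Igusa.sl_denom_ne_zero γ τ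
  rw [ModularForm.SL_slash_apply, ratioFun, wpDeriv_smul, wpDiff_smul,
    FermatAgent.Igusa.vecMulSL_add, hd, ratioFun, zpow_neg_one]
  field_simp

theorem hasSum_wpDeriv_dil [NeZero L] {a : ℕ} (ha : a < L) (b : ℤ)
    (hv : NonzeroMod L ((a : ℤ), b)) :
    HasCoeff (wpDeriv L ((a : ℤ), b) ∘ dil L)
      (wpDerivCoeff L a (FermatAgent.Igusa.zetaRoot L ^ b)) := fun τ => by
  have h := hasSum_wpDeriv (NeZero.pos L) ha b hv (dil L τ)
  rwa [FermatAgent.Igusa.tParam_dil] at h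

theorem shift_of_vanish {f : ℍ → ℂ} {c : ℕ → ℂ} (h : HasCoeff f c) {m : ℕ}
    (hlt : ∀ n < m, c n = 0) :
    HasCoeff (fun τ => f τ / 𝕢 1 (τ : ℂ) ^ m) fun n => c (n + m) := fun τ => by
  have h1 : HasSum (fun n => c (n + m) * 𝕢 1 (τ : ℂ) ^ (n + m)) (f τ) := by
    have := (hasSum_nat_add_iff' m).mpr (h τ)
    rwa [Finset.sum_eq_zero (fun n hn => by rw [hlt n (Finset.mem_range.mp hn), zero_mul]),
      sub_zero] at this
  refine (h1.div_const (𝕢 1 (τ : ℂ) ^ m)).congr_fun fun n => ?_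
  have hq : 𝕢 1 (τ : ℂ) ≠ 0 := Complex.exp_ne_zero _
  rw [pow_add]
  field_simp

/-- The form is holomorphic and bounded at `i∞`. -/
theorem ratioFun_regular [NeZero L] {u : ℤ × ℤ} (hu : RatioAdm L u) :
    MDiff (ratioFun L u) ∧ IsBoundedAtImInfty (ratioFun L u) := by
  have hL := NeZero.pos L
  obtain ⟨a, hra⟩ := Int.eq_ofNat_of_zero_le
    (Int.emod_nonneg u.1 (Int.natCast_ne_zero.mpr (NeZero.ne L)))
  have ha : a < L := by
    have := Int.emod_lt_of_pos u.1 (Int.natCast_pos.mpr hL)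
    omega
  have hd : (L : ℤ) ∣ u.1 - a := by rw [← hra]; exact Int.dvd_self_sub_emod
  have hv : NonzeroMod L ((a : ℤ), u.2) := fun h =>
    hu.left ⟨(dvd_sub_left h.1).mp hd, h.2⟩
  have hnum : HasCoeff (wpDeriv L u ∘ dil L)
      (wpDerivCoeff L a (FermatAgent.Igusa.zetaRoot L ^ u.2)) := by
    refine (hasSum_wpDeriv_dil ha u.2 hv).congr_fun' (funext fun τ => ?_)
    exact wpDeriv_congr hL hd (by simp) _
  have hden : HasCoeff (wpDiff L u (u + u) ∘ dil L) (wpDiffCoeff L u (u + u)) :=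
    hasSum_wpDiff hu.left hu.right
  obtain ⟨m, hm, hlt, hunit⟩ := FermatAgent.Igusa.exists_lead (R := (⊤ : Subring ℂ))
    (fun _ => Subring.mem_top _) (Subring.mem_top _) hu.left hu.right hu.ne
  have hne : ∀ τ, (wpDiff L u (u + u) ∘ dil L) τ ≠ 0 := fun τ =>
    wpDiff_ne_zero hu.left hu.right hu.ne _
  set G : ℍ → ℂ := ratioFun L u ∘ dil L with hG
  have hGmul : G = (wpDeriv L u ∘ dil L) * fun τ => ((wpDiff L u (u + u) ∘ dil L) τ)⁻¹ := by
    funext τ
    simp [hG, ratioFun, div_eq_mul_inv]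
  have hGd : MDiff G := hGmul ▸ (mul_mem (FermatAgent.Igusa.mem_cuspRing_of_hasSum hnum).1
    (FermatAgent.Igusa.inv_mem_cuspRing_of_hasSum hden hne hlt hunit.1)).1
  have hm' : ∀ n < m, wpDerivCoeff L a (FermatAgent.Igusa.zetaRoot L ^ u.2) n = 0 := fun n hn => by
    have : m ≤ min a (L - a) := by
      rw [hm, vecHeight, hra, Int.toNat_natCast]
      omega
    exact wpDerivCoeff_of_lt _ ha (by omega) (by omega)
  have hGb : IsBoundedAtImInfty G := by
    have h1 := FermatAgent.Igusa.tendsto_of_hasSum (shift_of_vanish hnum hm')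
    have h2 := FermatAgent.Igusa.tendsto_of_hasSum (shift_of_vanish hden hlt)
    have h3 : wpDiffCoeff L u (u + u) (0 + m) ≠ 0 := by rw [zero_add]; exact hunit.1
    refine ((h1.div h2 h3).isBigO_one ℝ).congr_left fun τ => ?_
    simp only [Pi.div_apply, hG, comp_apply, ratioFun]
    have hq : 𝕢 1 (τ : ℂ) ^ m ≠ 0 := pow_ne_zero _ (Complex.exp_ne_zero _)
    rw [div_div_div_cancel_right₀ hq]
  set D := ModularForm.heckeDiagMatrix L
  have hD : ratioFun L u ∣[(1 : ℤ)] D = G := by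
    funext τ
    rw [ModularForm.slash_heckeDiagMatrix_apply 1 (NeZero.ne L), sub_self, zpow_zero, one_mul, hG,
      comp_apply]
    congr 1
    exact UpperHalfPlane.ext (by
      rw [ModularForm.coe_heckeDiagMatrix_smul (NeZero.ne L), FermatAgent.ModFun.coe_dil])
  have hinv : ratioFun L u = G ∣[(1 : ℤ)] D⁻¹ := by
    rw [← hD, ← SlashAction.slash_mul, mul_inv_cancel, SlashAction.slash_one]
  have h10 : (D⁻¹ : GL (Fin 2) ℝ) 1 0 = 0 := by
    rw [Matrix.coe_units_inv, Matrix.inv_def, Matrix.adjugate_fin_two,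
      ModularForm.val_heckeDiagMatrix (NeZero.ne L)]
    simp
  rw [hinv]
  exact ⟨hGd.slash 1 _, hGb.slash 1 h10⟩

/-- The form of level `Γ₁(L)`. -/
theorem isMF_ratioFun (hL : L.Prime) (h5 : 5 ≤ L) :
    IsMF (Gamma1 L) 1 (ratioFun L (0, 1)) := by
  have : NeZero L := ⟨hL.ne_zero⟩
  have h01 : NonzeroMod L ((0 : ℤ), (1 : ℤ)) := fun h =>
    hL.ne_one (Nat.dvd_one.mp (Int.natCast_dvd_natCast.mp (by simpa using h.2)))
  refine ⟨(ratioFun_regular (ratioAdm_of_prime hL h5 h01)).1, fun γ hγ => ?_, fun γ => ?_⟩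
  · rw [ratioFun_slash]
    obtain ⟨-, h11, h10⟩ := (Gamma1_mem L γ).mp hγ
    refine ratioFun_congr hL.pos ?_ ?_ <;>
      simp only [vecMulSL, zero_mul, one_mul, zero_add, sub_zero,
        ← ZMod.intCast_zmod_eq_zero_iff_dvd, Int.cast_sub, Int.cast_one, h10, h11, sub_self]
  · rw [ratioFun_slash]
    exact (ratioFun_regular (ratioAdm_of_prime hL h5
      (FermatAgent.Igusa.nonzeroMod_vecMulSL h01 γ))).2

end FermatAgent.DeligneSerre.WeightOne
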