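import Fermat.Agent.DeligneSerre.WeightOne.Expansion
import Fermat.Agent.DeligneSerre.Periods.Corr
import Fermat.Agent.Periods.HeckeHom

/-!
# `T_p` and `⟨d⟩` on forms for groups between `Γ₁(N)` and `Γ₀(N)`, as plain functions
-/

set_option autoImplicit false

noncomputable section

open Complex Filter Function CongruenceSubgroup
open UpperHalfPlane hiding I
open scoped Real Topology MatrixGroups Manifold ModularForm

namespace FermatAgent.DeligneSerre.WeightOne

open FermatAgent.ModCurve.Forms (IsMF IsCF)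
open FermatAgent.DeligneSerre.Periods (lr lr_mul lr_inv_mul_self gamma0Lift gamma0Lift_mem lr_gamma0Lift primeUnit tRep1)
open FermatAgent.Periods (upperRep diagRep heckeMatrix_eq_map heckeDiagMatrix_eq_map)

/-- `Γ` lies between `Γ₁(N)` and `Γ₀(N)` and is cut out by the lower right entry. -/
structure Between (N : ℕ) (Γ : Subgroup SL(2, ℤ)) : Prop where
  le : Γ ≤ Gamma0 N
  mem_of_lr : ∀ {g h : SL(2, ℤ)}, g ∈ Γ → h ∈ Gamma0 N → lr N h = lr N g → h ∈ Γ

variable {N : ℕ}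

theorem between_gamma1 (N : ℕ) : Between N (Gamma1 N) where
  le := Gamma1_in_Gamma0 N
  mem_of_lr {g h} hg hh e := by
    rw [Gamma1_mem] at hg ⊢
    have h11 : ((h 1 1 : ℤ) : ZMod N) = 1 := e.trans hg.2.1
    have hdet := h.det_coe
    rw [Matrix.det_fin_two] at hdet
    have hd := congrArg (fun z : ℤ => (z : ZMod N)) hdet
    simp only [Int.cast_sub, Int.cast_mul, Int.cast_one, Gamma0_mem.mp hh, h11, mul_one, mul_zero,
      sub_zero] at hd
    exact ⟨hd, h11, Gamma0_mem.mp hh⟩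

theorem between_gam (N : ℕ) : Between N (X1.gam N) where
  le := X1.gam_le_gamma0 N
  mem_of_lr {g h} hg hh e := ⟨hh, by
    rw [show ((h 1 1 : ℤ) : ZMod N) = lr N g from e]
    exact hg.2⟩

namespace Between

variable {Γ : Subgroup SL(2, ℤ)} (H : Between N Γ)
include H

theorem conj_mem {g h : SL(2, ℤ)} (hg : g ∈ Gamma0 N) (hh : h ∈ Γ) : g * h * g⁻¹ ∈ Γ := by
  refine H.mem_of_lr hh (mul_mem (mul_mem hg (H.le hh)) (inv_mem hg)) ?_
  rw [lr_mul (mul_mem hg (H.le hh)), lr_mul hg]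
  linear_combination lr N h * lr_inv_mul_self hg

theorem T_mem : ModularGroup.T ∈ Γ := by
  refine H.mem_of_lr (one_mem Γ) ?_ ?_
  · exact Gamma0_mem.mpr (by simp [ModularGroup.coe_T])
  · simp [lr, ModularGroup.coe_T]

theorem finiteIndex [NeZero N] : Γ.FiniteIndex := by
  refine Subgroup.finiteIndex_of_le (H := Gamma1 N) fun g hg => ?_
  exact H.mem_of_lr (one_mem Γ) (Gamma1_in_Gamma0 N hg)
    (by rw [lr, (Gamma1_mem N g).mp hg |>.2.1]; simp [lr])

/-- `f ∣ g` for `g ∈ Γ₀(N)` only depends on the lower right entry of `g`. -/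
theorem slash_congr {k : ℤ} {f : ℍ → ℂ} (hf : ∀ γ ∈ Γ, f ∣[k] γ = f) {g h : SL(2, ℤ)}
    (hg : g ∈ Gamma0 N) (hh : h ∈ Gamma0 N) (e : lr N g = lr N h) : f ∣[k] g = f ∣[k] h := by
  have hm : h * g⁻¹ ∈ Γ := by
    refine H.mem_of_lr (one_mem Γ) (mul_mem hh (inv_mem hg)) ?_
    rw [lr_mul hh, ← e, mul_comm, lr_inv_mul_self hg]
    simp [lr]
  conv_rhs => rw [show h = h * g⁻¹ * g by group, SlashAction.slash_mul, hf _ hm]

/-- `⟨d⟩` preserves cusp forms. -/
theorem isCF_slash {k : ℤ} {f : ℍ → ℂ} (hf : IsCF Γ k f) {g : SL(2, ℤ)} (hg : g ∈ Gamma0 N) :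
    IsCF Γ k (f ∣[k] g) := by
  refine ⟨⟨?_, fun γ hγ => ?_, fun γ => ?_⟩, fun γ => ?_⟩
  · rw [ModularForm.SL_slash]
    exact hf.holo.slash k _
  · rw [← SlashAction.slash_mul, show g * γ = g * γ * g⁻¹ * g by group, SlashAction.slash_mul,
      hf.inv _ (H.conj_mem hg hγ)]
  · rw [← SlashAction.slash_mul]
    exact hf.bdd _
  · rw [← SlashAction.slash_mul]
    exact hf.zero _

end Between

variable [NeZero N] {p : ℕ} (hp : p.Prime) (hpN : ¬ p ∣ N) (k : ℤ)

/-- `T_p` on functions for `Γ₁(N)`. -/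
def hecke1 (f : ℍ → ℂ) : ℍ → ℂ :=
  ModularForm.heckeU k p f +
    (f ∣[k] gamma0Lift (primeUnit hp hpN)) ∣[k] ModularForm.heckeDiagMatrix p

/-- The real matrices underlying the representatives `tRep1`. -/
def tGL (i : Option (ZMod p)) : GL (Fin 2) ℝ :=
  match i with
  | none => (gamma0Lift (primeUnit hp hpN) : GL (Fin 2) ℝ) * ModularForm.heckeDiagMatrix p
  | some x => ModularForm.heckeMatrix p x.val

theorem coe_tGL (i : Option (ZMod p)) :
    ((tGL hp hpN i : GL (Fin 2) ℝ) : Matrix (Fin 2) (Fin 2) ℝ) =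
      (tRep1 hp hpN i).map (Int.castRingHom ℝ) := by
  cases i with
  | none =>
    rw [Periods.tRep1_none, Matrix.map_mul, tGL, Matrix.GeneralLinearGroup.coe_mul,
      heckeDiagMatrix_eq_map hp.ne_zero]
    rfl
  | some x =>
    rw [Periods.tRep1_some, tGL]
    exact heckeMatrix_eq_map hp.ne_zero x.val

theorem tGL_mul_eq {i j : Option (ZMod p)} {g δ : SL(2, ℤ)}
    (h : tRep1 hp hpN i * (g : Matrix (Fin 2) (Fin 2) ℤ) =
      (δ : Matrix (Fin 2) (Fin 2) ℤ) * tRep1 hp hpN j) :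
    tGL hp hpN i * (g : GL (Fin 2) ℝ) = (δ : GL (Fin 2) ℝ) * tGL hp hpN j := by
  apply Units.ext
  rw [Matrix.GeneralLinearGroup.coe_mul, Matrix.GeneralLinearGroup.coe_mul, coe_tGL, coe_tGL]
  have e := congrArg (fun A : Matrix (Fin 2) (Fin 2) ℤ => A.map (Int.castRingHom ℝ)) h
  simp only [Matrix.map_mul] at e
  exact e

theorem hecke1_eq_sum [NeZero p] (f : ℍ → ℂ) :
    hecke1 hp hpN k f = ∑ i : Option (ZMod p), f ∣[k] tGL hp hpN i := by
  rw [Fintype.sum_option, hecke1, add_comm, tGL, SlashAction.slash_mul, ← ModularForm.SL_slash]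
  congr 1
  rw [ModularForm.heckeU_def]
  refine Finset.sum_nbij' (fun j => (j : ZMod p)) (fun x => x.val) (fun _ _ => Finset.mem_univ _)
    (fun x _ => Finset.mem_range.mpr (ZMod.val_lt x))
    (fun j hj => ZMod.val_natCast_of_lt (Finset.mem_range.mp hj))
    (fun x _ => ZMod.natCast_zmod_val x) fun j hj => ?_
  simp only [tGL, ZMod.val_natCast_of_lt (Finset.mem_range.mp hj)]

variable {Γ : Subgroup SL(2, ℤ)} (H : Between N Γ)
include H

/-- `T_p` commutes with the action of `Γ₀(N)`. -/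
theorem hecke1_slash_comm {f : ℍ → ℂ} (hf : ∀ γ ∈ Γ, f ∣[k] γ = f) {g : SL(2, ℤ)}
    (hg : g ∈ Gamma0 N) : hecke1 hp hpN k f ∣[k] g = hecke1 hp hpN k (f ∣[k] g) := by
  have : NeZero p := ⟨hp.ne_zero⟩
  choose j δ hδ hlr hmul using fun i => Periods.exists_tRep1_move hp hpN hg i
  have hinj : Function.Injective j := fun a b hab => by
    refine Periods.tRep1_sep hp hpN (δ a * (δ b)⁻¹) a b ?_
    have ha := hmul a
    have hb := hmul b
    rw [hab] at ha
    have e : tRep1 hp hpN (j b) = (((δ b)⁻¹ : SL(2, ℤ)) : Matrix (Fin 2) (Fin 2) ℤ) *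
        (tRep1 hp hpN b * (g : Matrix (Fin 2) (Fin 2) ℤ)) := by
      rw [hb, ← mul_assoc, ← Matrix.SpecialLinearGroup.coe_mul, inv_mul_cancel,
        Matrix.SpecialLinearGroup.coe_one, one_mul]
    rw [e, ← mul_assoc, ← mul_assoc, ← Matrix.SpecialLinearGroup.coe_mul] at ha
    have := congrArg (· * ((g⁻¹ : SL(2, ℤ)) : Matrix (Fin 2) (Fin 2) ℤ)) ha
    simpa only [mul_assoc, ← Matrix.SpecialLinearGroup.coe_mul, mul_inv_cancel,
      Matrix.SpecialLinearGroup.coe_one, mul_one] using this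
  rw [hecke1_eq_sum, hecke1_eq_sum, ModularForm.SL_slash, SlashAction.sum_slash]
  refine Eq.trans (Finset.sum_congr rfl fun i _ => ?_)
    (Equiv.sum_comp (Equiv.ofBijective j hinj.bijective_of_finite)
      fun i => (f ∣[k] g) ∣[k] tGL hp hpN i)
  rw [← SlashAction.slash_mul, tGL_mul_eq hp hpN (hmul i), SlashAction.slash_mul,
    ← ModularForm.SL_slash, H.slash_congr hf (hδ i) hg (hlr i)]
  rfl

/-- `T_p` preserves invariance. -/
theorem hecke1_slash {f : ℍ → ℂ} (hf : ∀ γ ∈ Γ, f ∣[k] γ = f) {g : SL(2, ℤ)} (hg : g ∈ Γ) :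
    hecke1 hp hpN k f ∣[k] g = hecke1 hp hpN k f := by
  rw [hecke1_slash_comm hp hpN k H hf (H.le hg), hf g hg]

end FermatAgent.DeligneSerre.WeightOne
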