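import Fermat.Agent.DeligneSerre.WeightOne.Hecke

/-!
# The nebentypus of a weight one form with the Hecke relations of character `ε`

If the coefficients of `f` satisfy the relations of `T_p` with eigenvalue `a p` and character value
`ε p`, then `g = f ∣ ⟨p⟩ - ε p f` has `g ∣ diag(p, 1)` invariant under `Γ₁(N)`.  Such a `g` is zero:
some translate of it would otherwise be `p g (p² z)`, and the translates are periodic.
-/

set_option autoImplicit false

noncomputable section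

open Complex Filter Function CongruenceSubgroup
open UpperHalfPlane hiding I
open scoped Real Topology MatrixGroups Manifold ModularForm

namespace FermatAgent.DeligneSerre.WeightOne

open FermatAgent.ModCurve.Forms (IsMF IsCF)
open FermatAgent.DeligneSerre.Periods (lr lr_mul lr_one gamma0Lift gamma0Lift_mem lr_gamma0Lift primeUnit coe_primeUnit)
open ModularForm (heckeMatrix heckeDiagMatrix)

variable {N : ℕ} {p : ℕ}

theorem slash_sub {G : Type*} [Monoid G] [SlashAction ℤ G (ℍ → ℂ)] (k : ℤ) (g : G) (a b : ℍ → ℂ) :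
    (a - b) ∣[k] g = a ∣[k] g - b ∣[k] g := by
  rw [sub_eq_add_neg, SlashAction.add_slash, SlashAction.neg_slash, ← sub_eq_add_neg]

/-- A cusp form `g` such that `g ∣ diag(p, 1)` has the level of `g`. -/
structure OldHyp (N p : ℕ) (g : ℍ → ℂ) : Prop where
  isCF : IsCF (Gamma1 N) 1 g
  inv : ∀ γ ∈ Gamma1 N, (g ∣[(1 : ℤ)] heckeDiagMatrix p) ∣[(1 : ℤ)] γ =
    g ∣[(1 : ℤ)] heckeDiagMatrix p

theorem gl_mul_eq {A B : Matrix (Fin 2) (Fin 2) ℤ} {u v : GL (Fin 2) ℝ} {g h : SL(2, ℤ)}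
    (hu : (u : Matrix (Fin 2) (Fin 2) ℝ) = A.map (Int.castRingHom ℝ))
    (hv : (v : Matrix (Fin 2) (Fin 2) ℝ) = B.map (Int.castRingHom ℝ))
    (e : A * (g : Matrix (Fin 2) (Fin 2) ℤ) = (h : Matrix (Fin 2) (Fin 2) ℤ) * B) :
    u * (g : GL (Fin 2) ℝ) = (h : GL (Fin 2) ℝ) * v := by
  apply Units.ext
  rw [Matrix.GeneralLinearGroup.coe_mul, Matrix.GeneralLinearGroup.coe_mul, hu, hv]
  have e' := congrArg (fun A : Matrix (Fin 2) (Fin 2) ℤ => A.map (Int.castRingHom ℝ)) e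
  simp only [Matrix.map_mul] at e'
  exact e'

set_option linter.unnecessarySeqFocus false in
/-- Elements of `Γ₁(N)` and `Γ₀(N)` moving `diag(p, 1)`. -/
theorem exists_diag_moves (hp : p.Prime) (hpN : ¬ p ∣ N) :
    ∃ γ γ' γ'' h : SL(2, ℤ), γ ∈ Gamma1 N ∧ γ' ∈ Gamma0 N ∧ γ'' ∈ Gamma0 N ∧ h ∈ Gamma0 N ∧
      lr N γ' = lr N γ'' ∧ lr N γ'' * p = 1 ∧
      FermatAgent.Periods.diagRep p * (γ : Matrix (Fin 2) (Fin 2) ℤ) =
        (γ' : Matrix (Fin 2) (Fin 2) ℤ) * FermatAgent.Periods.upperRep p (0 : ℕ) ∧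
      FermatAgent.Periods.diagRep p * (h : Matrix (Fin 2) (Fin 2) ℤ) =
        (γ'' : Matrix (Fin 2) (Fin 2) ℤ) * FermatAgent.Periods.diagRep p := by
  obtain ⟨e, t, het⟩ : ∃ e t : ℤ, (p : ℤ) * e - (N : ℤ) * t = 1 := by
    obtain ⟨x, y, hxy⟩ : IsCoprime (p : ℤ) (N : ℤ) :=
      Int.isCoprime_iff_gcd_eq_one.mpr (by
        rw [Int.gcd_natCast_natCast]; exact (hp.coprime_iff_not_dvd.mpr hpN))
    exact ⟨x, -y, by linear_combination hxy⟩
  have hpZ : Prime (p : ℤ) := Nat.prime_iff_prime_int.mp hp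
  have hN : ¬ (p : ℤ) ∣ (N : ℤ) := fun h => hpN (Int.natCast_dvd_natCast.mp h)
  obtain ⟨d, hde, hd⟩ : ∃ d : ℤ, ((d : ℤ) : ZMod N) = (e : ZMod N) ∧ IsCoprime d ((N : ℤ) * p) := by
    have key : ∀ d : ℤ, ((d : ℤ) : ZMod N) = (e : ZMod N) → ¬ (p : ℤ) ∣ d →
        IsCoprime d ((N : ℤ) * p) := fun d h h' => by
      refine IsCoprime.mul_right ?_ ((hpZ.coprime_iff_not_dvd).mpr h').symm
      obtain ⟨c, hc⟩ := (ZMod.intCast_eq_intCast_iff_dvd_sub _ _ _).mp h
      exact ⟨(p : ℤ), (p : ℤ) * c - t, by linear_combination het - (p : ℤ) * hc⟩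
    by_cases hpe : (p : ℤ) ∣ e
    · exact ⟨e + N, by simp, key _ (by simp) fun h => hN ((dvd_add_right hpe).mp h)⟩
    · exact ⟨e, rfl, key _ rfl hpe⟩
  obtain ⟨a, b, hab⟩ := hd
  refine ⟨⟨!![1, t; (N : ℤ), (p : ℤ) * e], by rw [Matrix.det_fin_two_of]; linear_combination het⟩,
    ⟨!![(p : ℤ), t; (N : ℤ), e], by rw [Matrix.det_fin_two_of]; linear_combination het⟩,
    ⟨!![a, (p : ℤ) * -b; (N : ℤ), d], by rw [Matrix.det_fin_two_of]; linear_combination hab⟩,
    ⟨!![a, -b; (N : ℤ) * p, d], by rw [Matrix.det_fin_two_of]; linear_combination hab⟩,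
    ?_, Gamma0_mem.mpr (by simp), Gamma0_mem.mpr (by simp), Gamma0_mem.mpr (by simp), ?_, ?_, ?_, ?_⟩
  · refine (Gamma1_mem N _).mpr ?_
    have : ((((p : ℤ) * e : ℤ)) : ZMod N) = 1 := by
      rw [show (p : ℤ) * e = 1 + (N : ℤ) * t by linear_combination het]
      simp
    exact ⟨by simp, by simpa using this, by simp⟩
  · simp [lr, hde]
  · simp only [lr, Matrix.cons_val', Matrix.cons_val_one, Matrix.cons_val_fin_one,
      Matrix.of_apply]
    rw [hde, show ((p : ℕ) : ZMod N) = (((p : ℤ)) : ZMod N) by simp, ← Int.cast_mul,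
      show e * (p : ℤ) = 1 + (N : ℤ) * t by linear_combination het]
    simp
  · ext i j
    fin_cases i <;> fin_cases j <;>
      simp [FermatAgent.Periods.diagRep, FermatAgent.Periods.upperRep, Matrix.mul_apply,
        Fin.sum_univ_two] <;> ring
  · ext i j
    fin_cases i <;> fin_cases j <;>
      simp [FermatAgent.Periods.diagRep, Matrix.mul_apply, Fin.sum_univ_two] <;> ring

variable [NeZero N] (hp : p.Prime) (hpN : ¬ p ∣ N)
include hp hpN

omit [NeZero N] in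
/-- One step: a translate of `g` is `p g (p² z)`. -/
theorem OldHyp.exists_step :
    ∃ s : SL(2, ℤ), s ∈ Gamma0 N ∧ ∀ g : ℍ → ℂ, OldHyp N p g →
      OldHyp N p (g ∣[(1 : ℤ)] s) ∧
      ∀ c : ℕ → ℂ, HasCoeff g c → HasCoeff (g ∣[(1 : ℤ)] s)
        ((p : ℂ) • diagCoeff 1 p (diagCoeff 1 p c)) := by
  obtain ⟨γ, γ', γ'', h, hγ, hγ', hγ'', hh, hlr, -, e1, e2⟩ := exists_diag_moves hp hpN
  refine ⟨γ'', hγ'', fun g hg => ⟨⟨(between_gamma1 N).isCF_slash hg.isCF hγ'', fun δ hδ => ?_⟩,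
    fun c hc => ?_⟩⟩
  · have e : (g ∣[(1 : ℤ)] γ'') ∣[(1 : ℤ)] heckeDiagMatrix p =
        (g ∣[(1 : ℤ)] heckeDiagMatrix p) ∣[(1 : ℤ)] h := by
      rw [ModularForm.SL_slash, ModularForm.SL_slash, ← SlashAction.slash_mul,
        ← SlashAction.slash_mul, gl_mul_eq (FermatAgent.Periods.heckeDiagMatrix_eq_map hp.ne_zero)
          (FermatAgent.Periods.heckeDiagMatrix_eq_map hp.ne_zero) e2]
    rw [e, ← SlashAction.slash_mul, show h * δ = h * δ * h⁻¹ * h by group, SlashAction.slash_mul,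
      hg.inv _ ((between_gamma1 N).conj_mem hh hδ)]
  · have e : g ∣[(1 : ℤ)] heckeDiagMatrix p =
        (g ∣[(1 : ℤ)] γ'') ∣[(1 : ℤ)] heckeMatrix p 0 := by
      rw [← (between_gamma1 N).slash_congr hg.isCF.inv hγ' hγ'' hlr]
      conv_lhs => rw [← hg.inv γ hγ]
      rw [ModularForm.SL_slash, ModularForm.SL_slash, ← SlashAction.slash_mul,
        ← SlashAction.slash_mul, gl_mul_eq (FermatAgent.Periods.heckeDiagMatrix_eq_map hp.ne_zero)
          (FermatAgent.Periods.heckeMatrix_eq_map hp.ne_zero 0) e1]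
    have : NeZero p := ⟨hp.ne_zero⟩
    intro τ
    have he := congrFun e (FermatAgent.Eisenstein.scalePt p τ)
    rw [ModularForm.slash_heckeMatrix_apply 1 hp.ne_zero] at he
    have hpt : heckeMatrix p 0 • FermatAgent.Eisenstein.scalePt p τ = τ := UpperHalfPlane.ext (by
      rw [ModularForm.coe_heckeMatrix_smul hp.ne_zero, FermatAgent.Eisenstein.coe_scalePt]
      simp [hp.ne_zero])
    rw [hpt] at he
    have hd := ((hc.slash_diag 1 hp.ne_zero).slash_diag 1 hp.ne_zero).smul (p : ℂ) τ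
    convert hd using 1
    rw [Pi.smul_apply, slash_heckeDiag_apply 1 hp.ne_zero (g ∣[(1 : ℤ)] heckeDiagMatrix p),
      he, smul_eq_mul, sub_self, zpow_zero, one_mul,
      mul_inv_cancel_left₀ (Nat.cast_ne_zero.mpr hp.ne_zero)]

/-- A form `g` with `g ∣ diag(p, 1)` of the same level vanishes. -/
theorem OldHyp.eq_zero {g : ℍ → ℂ} (hg : OldHyp N p g) : g = 0 := by
  obtain ⟨s, hs, hstep⟩ := OldHyp.exists_step hp hpN
  have key : ∀ j : ℕ, OldHyp N p (g ∣[(1 : ℤ)] (s ^ j)) ∧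
      ∀ n : ℕ, ModularFormClass.qCoeff (g ∣[(1 : ℤ)] (s ^ j)) n ≠ 0 → (p * p) ^ j ∣ n := by
    intro j
    induction j with
    | zero =>
      refine ⟨?_, fun n _ => by simp⟩
      rw [pow_zero, SlashAction.slash_one]
      exact hg
    | succ j ih =>
      obtain ⟨h1, h2⟩ := hstep _ ih.1
      rw [pow_succ, SlashAction.slash_mul]
      refine ⟨h1, fun n hn => ?_⟩
      rw [(h2 _ (hasCoeff_of_isMF (between_gamma1 N).T_mem ih.1.isCF.toIsMF)).qCoeff_eq] at hn
      simp only [Pi.smul_apply, smul_eq_mul, diagCoeff] at hn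
      split_ifs at hn with hd hd'
      · simp only [ne_eq, mul_eq_zero, not_or] at hn
        obtain ⟨m, rfl⟩ := hd
        rw [Nat.mul_div_cancel_left _ hp.pos] at hd' hn
        obtain ⟨r, rfl⟩ := hd'
        rw [Nat.mul_div_cancel_left _ hp.pos] at hn
        rw [pow_succ', ← mul_assoc]
        exact mul_dvd_mul_left _ (ih.2 _ hn.2.2.2)
      all_goals simp at hn
  have hu : IsUnit (lr N s) := IsUnit.of_mul_eq_one_right _ (Periods.lr_inv_mul_self hs)
  have hord : ∀ m : ℕ, g ∣[(1 : ℤ)] (s ^ (N.totient * m)) = g := fun m => by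
    refine hg.isCF.inv _ ((between_gamma1 N).mem_of_lr (one_mem _) (pow_mem hs _) ?_)
    have hpow : ∀ j : ℕ, lr N (s ^ j) = lr N s ^ j := fun j => by
      induction j with
      | zero => simp [lr_one]
      | succ j ih => rw [pow_succ, lr_mul (pow_mem hs j), ih, pow_succ]
    rw [hpow, lr_one, ← hu.unit_spec, ← Units.val_pow_eq_pow_val, pow_mul, ZMod.pow_totient,
      one_pow, Units.val_one]
  refine (hasCoeff_of_isMF (between_gamma1 N).T_mem hg.isCF.toIsMF).eq_of_coeff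
    (hasCoeff_zero.congr fun n => ?_)
  rcases eq_or_ne n 0 with rfl | hn0
  · exact (hasCoeff_of_isMF (between_gamma1 N).T_mem hg.isCF.toIsMF).coeff_zero
      (by simpa using hg.isCF.zero 1)
  by_contra hne
  have h2 := (key (N.totient * n)).2 n (by rwa [hord])
  have h3 := Nat.le_of_dvd (Nat.pos_of_ne_zero hn0) h2
  have h4 : n < (p * p) ^ (N.totient * n) :=
    (Nat.lt_pow_self (Nat.one_lt_mul_iff.mpr ⟨hp.pos, hp.pos, Or.inl hp.one_lt⟩)).trans_le
      (Nat.pow_le_pow_right (Nat.mul_pos hp.pos hp.pos)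
        (Nat.le_mul_of_pos_left n (Nat.totient_pos.mpr (NeZero.pos N))))
  omega

omit hp hpN

/-- The Hecke relations of the coefficients force the nebentypus. -/
theorem slash_eq_eps_smul {ε : DirichletCharacter ℂ N} {f : ℍ → ℂ} (hf : IsCF (Gamma1 N) 1 f)
    (hT : ∀ p : ℕ, p.Prime → ¬ p ∣ N → ∃ a : ℂ, ∀ n : ℕ,
      ModularFormClass.qCoeff f (p * n) +
          ε (p : ZMod N) * (if p ∣ n then ModularFormClass.qCoeff f (n / p) else 0) =
        a * ModularFormClass.qCoeff f n)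
    {γ : SL(2, ℤ)} (hγ : γ ∈ Gamma0 N) : f ∣[(1 : ℤ)] γ = ε (lr N γ) • f := by
  have H := between_gamma1 N
  have hu : IsUnit (lr N γ) := IsUnit.of_mul_eq_one_right _ (Periods.lr_inv_mul_self hγ)
  obtain ⟨p, hpN', hp, heq⟩ := Nat.forall_exists_prime_gt_and_eq_mod hu N
  have hpN : ¬ p ∣ N := fun h => absurd (Nat.le_of_dvd (NeZero.pos N) h) (by omega)
  set s := gamma0Lift (primeUnit hp hpN)
  have hs : s ∈ Gamma0 N := gamma0Lift_mem _
  have hls : lr N s = lr N γ := by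
    rw [lr_gamma0Lift, coe_primeUnit, heq]
  rw [← H.slash_congr hf.inv hs hγ hls, ← heq]
  obtain ⟨a, ha⟩ := hT p hp hpN
  set c := ModularFormClass.qCoeff f
  have hc : HasCoeff f c := hasCoeff_of_isMF H.T_mem hf.toIsMF
  set e : ℂ := ε (p : ZMod N)
  set g : ℍ → ℂ := f ∣[(1 : ℤ)] s - e • f with hgdef
  have hD : ∀ u : ℂ, (u • f) ∣[(1 : ℤ)] heckeDiagMatrix p = u • (f ∣[(1 : ℤ)] heckeDiagMatrix p) :=
    fun u => by rw [ModularForm.smul_slash, ModularForm.σ_heckeDiagMatrix]; rfl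
  have hW : ModularForm.heckeU 1 p f + e • (f ∣[(1 : ℤ)] heckeDiagMatrix p) = a • f := by
    refine ((hc.heckeU 1 hp.ne_zero).add ((hc.slash_diag 1 hp.ne_zero).smul e)).eq_of_coeff
      ((hc.smul a).congr fun n => ?_)
    simp only [Pi.add_apply, Pi.smul_apply, smul_eq_mul, uCoeff, diagCoeff, ← ha n, sub_self,
      zpow_zero, one_mul]
  have hgd : g ∣[(1 : ℤ)] heckeDiagMatrix p = hecke1 hp hpN 1 f - a • f := by
    rw [hgdef, slash_sub, hD, ← hW, hecke1]
    abel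
  have hg : OldHyp N p g :=
    ⟨⟨(H.isCF_slash hf hs).toIsMF.sub (hf.toIsMF.smul e), fun δ => by
      rw [hgdef, slash_sub, ModularForm.SL_smul_slash]
      have h0 := ((H.isCF_slash hf hs).zero δ).sub ((hf.zero δ).smul e)
      rw [sub_zero] at h0
      exact h0⟩, fun δ hδ => by
      rw [hgd, slash_sub, ModularForm.SL_smul_slash,
        hecke1_slash hp hpN 1 H hf.inv hδ, hf.inv δ hδ]⟩
  exact sub_eq_zero.mp (hg.eq_zero hp hpN)

end FermatAgent.DeligneSerre.WeightOne
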